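import Fermat.Agent.A2.H129.GaussTwice

/-!
# A2 / K2 (abstract part), constant-free form

For ONE valuation subring `V` of `F` (value group = value group of the constants, `τ` acts
trivially on the residue field and preserves the values of the constants):

* `oneAddNonunits_twice` : for EVERY `f ≠ 0`, `(τ - 1)² f ∈ 1 + 𝔪_V` (no constant needed).
* `oneAddNonunits_twice'` : the same for two (possibly different) automorphisms `τ`, `τ'`:
  `(τ' - 1)(τ - 1) f ∈ 1 + 𝔪_V`.

So the Kummer generator of `(τ' - 1)(τ - 1) x` is `≡ 1` along EVERY component of the special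
fibre, whatever the number of components.
-/

set_option autoImplicit false

namespace Fermat.Agent.A2.H129

variable {F : Type*} [Field F] {Kc : Subfield F} {V : ValuationSubring F}

/-- `(τ' - 1)(τ - 1) f ∈ 1 + 𝔪_V` for every `f ≠ 0`. -/
theorem oneAddNonunits_twice' {τ τ' : F ≃+* F}
    (hV : HasConstValues Kc V) (hτ : InInertia V τ) (hP : PreservesConstValues Kc V τ)
    (hτ' : InInertia V τ') {f : F} (hf : f ≠ 0) :
    OneAddNonunits V (tauSubOne τ' (tauSubOne τ f)) := by
  obtain ⟨c, hc, hc0, hu⟩ := hV f hf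
  -- `f = c * u`, `u = f / c` a unit
  have e : tauSubOne τ' (tauSubOne τ f)
      = tauSubOne τ' (tauSubOne τ (f * c⁻¹)) * tauSubOne τ' (tauSubOne τ c) := by
    rw [← tauSubOne_mul, ← tauSubOne_mul]
    congr 2
    field_simp
  rw [e]
  refine OneAddNonunits.mul ?_ ?_
  · exact oneAddNonunits_tauSubOne hτ' (oneAddNonunits_tauSubOne hτ hu).isUnitOf
  · exact oneAddNonunits_tauSubOne hτ' (hP c hc hc0)

/-- `(τ - 1)² f ∈ 1 + 𝔪_V` for every `f ≠ 0`. -/
theorem oneAddNonunits_twice {τ : F ≃+* F}
    (hV : HasConstValues Kc V) (hτ : InInertia V τ) (hP : PreservesConstValues Kc V τ)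
    {f : F} (hf : f ≠ 0) :
    OneAddNonunits V (tauSubOne τ (tauSubOne τ f)) :=
  oneAddNonunits_twice' hV hτ hP hτ hf

/-- `(τ - 1) f` is a unit of `V` for every `f ≠ 0`. -/
theorem isUnitOf_once {τ : F ≃+* F}
    (hV : HasConstValues Kc V) (hτ : InInertia V τ) (hP : PreservesConstValues Kc V τ)
    {f : F} (hf : f ≠ 0) :
    IsUnitOf V (tauSubOne τ f) := by
  obtain ⟨c, hc, hc0, hu⟩ := hV f hf
  have e : tauSubOne τ f = tauSubOne τ (f * c⁻¹) * tauSubOne τ c := by
    rw [← tauSubOne_mul]
    congr 1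
    field_simp
  rw [e]
  exact (oneAddNonunits_tauSubOne hτ hu).isUnitOf.mul (hP c hc hc0)

end Fermat.Agent.A2.H129
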