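import Mathlib
import Fermat.Agent.A2.H969.Krull
import Fermat.Agent.A2.H129.GaussTwice

/-!
# A2 / LOCFACT, part A: vertical units  (route S bridge LP → ALG_ss)

`B` a noetherian integrally closed domain (a chart of the model, or its local ring at a closed
point of the special fibre — ANY thickness), `w ∈ B`, `F = Frac B`, `σ : B →+* B` a ring
endomorphism congruent to the identity modulo `w` (the action of an inertia element), `τ` the
induced automorphism of `F`.

* `dvd_map_of_dvr` : in a discrete valuation ring, `x ∣ σ x` for every endomorphism `σ`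
  preserving the maximal ideal.
* `dvd_map_of_dvd_pow` : if `a ∣ w ^ n` then `a ∣ σ a`
  (the divisor of `a` is vertical, and the vertical prime divisors are `σ`-stable).
* `exists_unit_tauSubOne` : if `ε ∈ B[1/w]ˣ` (`w^k ε ∈ B`, `w^l ε⁻¹ ∈ B`) then
  `(τ - 1) ε = τ ε / ε ∈ Bˣ`.
* `exists_tauSubOne_unit` : if `g ∈ Bˣ` then `(τ' - 1) g ∈ 1 + w B`.
* `tauSubOne_twice_vertical` : hence `(τ' - 1)(τ - 1) ε ∈ 1 + w B` for `ε ∈ B[1/w]ˣ`.
-/

set_option autoImplicit false
set_option linter.unusedSectionVars false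

namespace Fermat.Agent.A2.H129

section Congr

variable {B : Type*} [CommRing B]

/-- an endomorphism congruent to the identity modulo `w` preserves every ideal containing `w` -/
theorem map_mem_of_congr {w : B} (σ : B →+* B) (hσ : ∀ b, w ∣ σ b - b) (P : Ideal B)
    (hw : w ∈ P) {b : B} (hb : b ∈ P) : σ b ∈ P := by
  obtain ⟨c, hc⟩ := hσ b
  have e : σ b = b + w * c := by rw [← hc]; ring
  rw [e]
  exact P.add_mem hb (P.mul_mem_right _ hw)

/-- an endomorphism congruent to the identity modulo `w` preserves the complement of every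
ideal containing `w` -/
theorem map_not_mem_of_congr {w : B} (σ : B →+* B) (hσ : ∀ b, w ∣ σ b - b) (P : Ideal B)
    (hw : w ∈ P) {b : B} (hb : b ∉ P) : σ b ∉ P := by
  intro h
  apply hb
  obtain ⟨c, hc⟩ := hσ b
  have e : b = σ b - w * c := by rw [← hc]; ring
  rw [e]
  exact P.sub_mem h (P.mul_mem_right _ hw)

end Congr

section DVR

/-- In a discrete valuation ring, `x ∣ σ x` for every ring endomorphism `σ` preserving the
maximal ideal. -/
theorem dvd_map_of_dvr {D : Type*} [CommRing D] [IsDomain D] [IsDiscreteValuationRing D]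
    (σ : D →+* D)
    (hσ : ∀ x ∈ IsLocalRing.maximalIdeal D, σ x ∈ IsLocalRing.maximalIdeal D) (x : D) :
    x ∣ σ x := by
  by_cases hx : x = 0
  · rw [hx, map_zero]
  obtain ⟨ϖ, hϖ⟩ := IsDiscreteValuationRing.exists_irreducible D
  obtain ⟨n, u, hu⟩ := IsDiscreteValuationRing.eq_unit_mul_pow_irreducible hx hϖ
  have hmem : ϖ ∈ IsLocalRing.maximalIdeal D := by
    rw [hϖ.maximalIdeal_eq]
    exact Ideal.subset_span rfl
  have h1 : ϖ ∣ σ ϖ := by
    have := hσ ϖ hmem
    rw [hϖ.maximalIdeal_eq, Ideal.mem_span_singleton] at this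
    exact this
  have h2 : ϖ ^ n ∣ σ ϖ ^ n := pow_dvd_pow_of_dvd h1 n
  obtain ⟨c, hc⟩ := h2
  refine ⟨σ (↑u : D) * c * ((u⁻¹ : Dˣ) : D), ?_⟩
  have hsx : σ x = σ (↑u : D) * σ ϖ ^ n := by rw [hu, map_mul, map_pow]
  have huu : (↑u : D) * ((u⁻¹ : Dˣ) : D) = 1 := Units.mul_inv u
  rw [hsx, hc, hu]
  linear_combination (-(σ (↑u : D) * ϖ ^ n * c)) * huu

end DVR

section Vertical

variable {B : Type*} [CommRing B] [IsDomain B] [IsNoetherianRing B] [IsIntegrallyClosed B]

/-- **Vertical divisors are stable.**  If `a ∣ w ^ n` and `σ ≡ id mod w`, then `a ∣ σ a`. -/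
theorem dvd_map_of_dvd_pow (w : B) (σ : B →+* B) (hσ : ∀ b, w ∣ σ b - b) {a : B} {n : ℕ}
    (ha : a ∣ w ^ n) : a ∣ σ a := by
  by_cases ha0 : a = 0
  · subst ha0
    rw [map_zero]
  refine Fermat.Agent.A2.H969.dvd_of_forall_dvr a ha0 (σ a) ?_
  intro P hP hdvr
  by_cases hw : w ∈ P
  · -- vertical prime: use the induced endomorphism of the DVR
    have hcomap : P.primeCompl ≤ Submonoid.comap σ P.primeCompl := by
      intro b hb
      exact map_not_mem_of_congr σ hσ P hw hb
    let σD : Localization.AtPrime P →+* Localization.AtPrime P :=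
      IsLocalization.map (M := P.primeCompl) (T := P.primeCompl) (Localization.AtPrime P) σ hcomap
    have hσD : ∀ x ∈ IsLocalRing.maximalIdeal (Localization.AtPrime P),
        σD x ∈ IsLocalRing.maximalIdeal (Localization.AtPrime P) := by
      intro x hx
      obtain ⟨p, s, rfl⟩ := IsLocalization.exists_mk'_eq P.primeCompl x
      have hp : p ∈ P := (IsLocalization.AtPrime.mk'_mem_maximal_iff
        (Localization.AtPrime P) P p s).1 hx
      have : σD (IsLocalization.mk' (Localization.AtPrime P) p s) =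
          IsLocalization.mk' (Localization.AtPrime P) (σ p)
            (⟨σ s, map_not_mem_of_congr σ hσ P hw s.2⟩ : P.primeCompl) :=
        IsLocalization.map_mk' _ _ _
      rw [this]
      exact (IsLocalization.AtPrime.mk'_mem_maximal_iff
        (Localization.AtPrime P) P (σ p) _).2 (map_mem_of_congr σ hσ P hw hp)
    have hdvd := dvd_map_of_dvr σD hσD (algebraMap B (Localization.AtPrime P) a)
    have hmap : σD (algebraMap B (Localization.AtPrime P) a) =
        algebraMap B (Localization.AtPrime P) (σ a) := IsLocalization.map_eq _ _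
    rw [hmap] at hdvd
    obtain ⟨y, hy⟩ := hdvd
    obtain ⟨c, t, rfl⟩ := IsLocalization.exists_mk'_eq P.primeCompl y
    refine ⟨t, t.2, c, ?_⟩
    have hinj : Function.Injective (algebraMap B (Localization.AtPrime P)) :=
      IsLocalization.injective (Localization.AtPrime P) P.primeCompl_le_nonZeroDivisors
    apply hinj
    rw [map_mul, map_mul, hy]
    have := IsLocalization.mk'_spec (Localization.AtPrime P) c t
    linear_combination (algebraMap B (Localization.AtPrime P) a) * this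
  · -- horizontal prime: `a` is a unit there
    refine ⟨w ^ n, fun h => hw (hP.mem_of_pow_mem n h), ?_⟩
    exact Dvd.dvd.mul_right ha _

end Vertical

section Units

variable {B : Type*} [CommRing B] [IsDomain B] [IsNoetherianRing B] [IsIntegrallyClosed B]
  {F : Type*} [Field F] [Algebra B F] [IsFractionRing B F]

/-- `τ ε / ε ∈ B` for `ε ∈ B[1/w]ˣ`. -/
theorem exists_tauSubOne_vertical (w : B) (hw0 : w ≠ 0) (τ : F ≃+* F) (σ : B →+* B)
    (hστ : ∀ b, algebraMap B F (σ b) = τ (algebraMap B F b))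
    (hσ : ∀ b, w ∣ σ b - b) (hw : σ w ∣ w) {ε : F} (hε : ε ≠ 0) {k l : ℕ} {a b : B}
    (ha : algebraMap B F w ^ k * ε = algebraMap B F a)
    (hb : algebraMap B F w ^ l * ε⁻¹ = algebraMap B F b) :
    ∃ g : B, algebraMap B F g = tauSubOne τ ε := by
  have hinj : Function.Injective (algebraMap B F) := IsFractionRing.injective B F
  have hwF : algebraMap B F w ≠ 0 := fun h => hw0 (hinj (by rw [h, map_zero]))
  have hab : a * b = w ^ (k + l) := by
    apply hinj
    rw [map_mul, ← ha, ← hb, map_pow, pow_add]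
    field_simp
  have hadvd : a ∣ w ^ (k + l) := ⟨b, hab.symm⟩
  obtain ⟨c₁, hc₁⟩ := dvd_map_of_dvd_pow w σ hσ hadvd
  obtain ⟨u, hu⟩ := hw
  have ha0 : a ≠ 0 := by
    rintro rfl
    rw [map_zero] at ha
    exact (mul_ne_zero (pow_ne_zero k hwF) hε) ha
  have haF : algebraMap B F a ≠ 0 := fun h => ha0 (hinj (by rw [h, map_zero]))
  have hσwF : algebraMap B F (σ w) ≠ 0 := by
    intro h
    apply hw0
    rw [hu, hinj (by rw [h, map_zero] : algebraMap B F (σ w) = algebraMap B F 0), zero_mul]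
  refine ⟨c₁ * u ^ k, ?_⟩
  have hε' : ε = algebraMap B F a * (algebraMap B F w ^ k)⁻¹ := by
    rw [← ha]; field_simp
  have hτε : τ ε = algebraMap B F (σ a) * (algebraMap B F (σ w) ^ k)⁻¹ := by
    rw [hε', map_mul, map_inv₀, map_pow, ← hστ, ← hστ]
  have hc₁F : algebraMap B F (σ a) = algebraMap B F a * algebraMap B F c₁ := by
    rw [← map_mul, hc₁]
  have huF : algebraMap B F w = algebraMap B F (σ w) * algebraMap B F u := by
    rw [← map_mul, ← hu]
  unfold tauSubOne
  rw [hτε, hc₁F, hε', map_mul, map_pow, huF]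
  field_simp
  ring

/-- **`(τ - 1) ε ∈ Bˣ` for `ε ∈ B[1/w]ˣ`.** -/
theorem exists_unit_tauSubOne (w : B) (hw0 : w ≠ 0) (τ : F ≃+* F) (σ : B →+* B)
    (hστ : ∀ b, algebraMap B F (σ b) = τ (algebraMap B F b))
    (hσ : ∀ b, w ∣ σ b - b) (hw : σ w ∣ w) {ε : F} (hε : ε ≠ 0) {k l : ℕ} {a b : B}
    (ha : algebraMap B F w ^ k * ε = algebraMap B F a)
    (hb : algebraMap B F w ^ l * ε⁻¹ = algebraMap B F b) :
    ∃ g : Bˣ, algebraMap B F (g : B) = tauSubOne τ ε := by
  have hinj : Function.Injective (algebraMap B F) := IsFractionRing.injective B F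
  obtain ⟨g, hg⟩ := exists_tauSubOne_vertical w hw0 τ σ hστ hσ hw hε ha hb
  obtain ⟨g', hg'⟩ := exists_tauSubOne_vertical w hw0 τ σ hστ hσ hw (inv_ne_zero hε) hb
    (by rw [inv_inv]; exact ha)
  have hgg : g * g' = 1 := by
    apply hinj
    rw [map_mul, hg, hg', tauSubOne_inv, map_one]
    exact mul_inv_cancel₀ (tauSubOne_ne_zero τ hε)
  exact ⟨⟨g, g', hgg, by rw [mul_comm]; exact hgg⟩, hg⟩

omit [IsNoetherianRing B] [IsIntegrallyClosed B] in
/-- **`(τ' - 1) g ∈ 1 + w B` for `g ∈ Bˣ`.** -/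
theorem exists_tauSubOne_unit (w : B) (τ' : F ≃+* F) (σ' : B →+* B)
    (hστ' : ∀ b, algebraMap B F (σ' b) = τ' (algebraMap B F b))
    (hσ' : ∀ b, w ∣ σ' b - b) (g : Bˣ) :
    ∃ c : B, tauSubOne τ' (algebraMap B F (g : B)) = algebraMap B F (1 + w * c) := by
  obtain ⟨c₀, hc₀⟩ := hσ' (g : B)
  refine ⟨c₀ * ((g⁻¹ : Bˣ) : B), ?_⟩
  have hgg : (g : B) * ((g⁻¹ : Bˣ) : B) = 1 := Units.mul_inv g
  have hgF : algebraMap B F (g : B) * algebraMap B F ((g⁻¹ : Bˣ) : B) = 1 := by
    rw [← map_mul, hgg, map_one]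
  have hinv : (algebraMap B F (g : B))⁻¹ = algebraMap B F ((g⁻¹ : Bˣ) : B) :=
    (eq_inv_of_mul_eq_one_right hgF).symm
  unfold tauSubOne
  rw [← hστ', hinv, ← map_mul]
  congr 1
  have e : σ' (g : B) = (g : B) + w * c₀ := by rw [← hc₀]; ring
  rw [e]
  linear_combination hgg

/-- **LOCFACT, vertical part.**  For `ε ∈ B[1/w]ˣ`: `(τ' - 1)(τ - 1) ε ∈ 1 + w B`. -/
theorem tauSubOne_twice_vertical (w : B) (hw0 : w ≠ 0) (τ τ' : F ≃+* F) (σ σ' : B →+* B)
    (hστ : ∀ b, algebraMap B F (σ b) = τ (algebraMap B F b))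
    (hσ : ∀ b, w ∣ σ b - b) (hw : σ w ∣ w)
    (hστ' : ∀ b, algebraMap B F (σ' b) = τ' (algebraMap B F b))
    (hσ' : ∀ b, w ∣ σ' b - b)
    {ε : F} (hε : ε ≠ 0) {k l : ℕ} {a b : B}
    (ha : algebraMap B F w ^ k * ε = algebraMap B F a)
    (hb : algebraMap B F w ^ l * ε⁻¹ = algebraMap B F b) :
    ∃ c : B, tauSubOne τ' (tauSubOne τ ε) = algebraMap B F (1 + w * c) := by
  obtain ⟨g, hg⟩ := exists_unit_tauSubOne w hw0 τ σ hστ hσ hw hε ha hb
  obtain ⟨c, hc⟩ := exists_tauSubOne_unit w τ' σ' hστ' hσ' g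
  exact ⟨c, by rw [← hg, hc]⟩

end Units

end Fermat.Agent.A2.H129
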