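import Mathlib
import Fermat.Agent.A2.H129.LocFactA
import Fermat.Agent.A2.H129.GaussTwiceB

/-!
# A2 / LOCFACT, part B: horizontal factorisation and the local factorisation of `(τ'-1)(τ-1) f`

Route S bridge LP → ALG_ss.  `F` a field, `V : ι → ValuationSubring F` a family of valuation
subrings of `F` (the *horizontal* prime divisors through a closed point `z` of the special fibre:
the discrete valuation rings of `F / E` containing the local ring `B = O_z`).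

* `exists_horizontal_factor` : if `m ∣ div f` on the family, `f` is a unit outside a finite set
  `S` of indices, and every `V i`, `i ∈ S`, has a uniformiser `d i` which is a unit at every other
  member of the family
  (local principality LP, `A2/H673/NodeThick.lean: exists_local_generator` +
  `section_eq_of_generator`), then `f = ε · D ^ m` with `ε` a unit at every member of the family.
* `locfact` : if moreover `B` is a noetherian integrally closed domain with `F = Frac B`,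
  `σ, σ' ≡ id mod w` (inertia), and the elements of `F` which are units on the family lie in `B[1/w]`
  (Krull), then
      `(τ' - 1)(τ - 1) f = (1 + w c) · ((τ' - 1)(τ - 1) D) ^ m`,  `c ∈ B`.
* `locfact_gauss` : and `(τ' - 1)(τ - 1) D ∈ 1 + 𝔪_W` for every Gauss valuation `W`
  (`GaussTwiceB.oneAddNonunits_twice'`).  This is the local input of ALG_ss
  (`A2/H729/Kummer.lean`, version C: `u = ε h ^ m`, `ε` a unit at the point, `h ≡ 1`).
-/

set_option autoImplicit false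
set_option linter.unusedSectionVars false

namespace Fermat.Agent.A2.H129

section Horizontal

variable {F : Type*} [Field F]

theorem isUnitOf_zpow {V : ValuationSubring F} {u : F} (hu : IsUnitOf V u) (n : ℤ) :
    IsUnitOf V (u ^ n) := by
  unfold IsUnitOf at *
  rw [map_zpow₀, hu, one_zpow]

theorem isUnitOf_pow {V : ValuationSubring F} {u : F} (hu : IsUnitOf V u) (n : ℕ) :
    IsUnitOf V (u ^ n) := by
  unfold IsUnitOf at *
  rw [map_pow, hu, one_pow]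

theorem isUnitOf_prod {V : ValuationSubring F} {ι : Type*} (s : Finset ι) (g : ι → F)
    (h : ∀ i ∈ s, IsUnitOf V (g i)) : IsUnitOf V (∏ i ∈ s, g i) := by
  unfold IsUnitOf at *
  rw [map_prod]
  exact Finset.prod_eq_one h

/-- **Horizontal factorisation.** -/
theorem exists_horizontal_factor {ι : Type*} (V : ι → ValuationSubring F) {m : ℕ} {f : F}
    (S : Finset ι) (d : ι → F)
    (hd0 : ∀ i ∈ S, d i ≠ 0)
    (hd_unif : ∀ i ∈ S, ∀ g : F, g ≠ 0 → ∃ n : ℤ, IsUnitOf (V i) (g * (d i ^ n)⁻¹))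
    (hd_unit : ∀ i ∈ S, ∀ j, j ≠ i → IsUnitOf (V j) (d i))
    (hf_unit : ∀ j, j ∉ S → IsUnitOf (V j) f)
    (hdiv : ∀ i ∈ S, ∃ h u : F, h ≠ 0 ∧ IsUnitOf (V i) u ∧ f = u * h ^ m) :
    ∃ D : F, D ≠ 0 ∧ ∀ j, IsUnitOf (V j) (f * (D ^ m)⁻¹) := by
  classical
  -- choose the orders
  have hn : ∀ i : ι, ∃ n : ℤ, i ∈ S →
      ∃ h u : F, h ≠ 0 ∧ IsUnitOf (V i) u ∧ f = u * h ^ m ∧
        IsUnitOf (V i) (h * (d i ^ n)⁻¹) := by
    intro i
    by_cases hi : i ∈ S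
    · obtain ⟨h, u, hh, hu, hfe⟩ := hdiv i hi
      obtain ⟨n, hn⟩ := hd_unif i hi h hh
      exact ⟨n, fun _ => ⟨h, u, hh, hu, hfe, hn⟩⟩
    · exact ⟨0, fun h => absurd h hi⟩
  choose n hn using hn
  refine ⟨∏ i ∈ S, d i ^ n i, ?_, ?_⟩
  · rw [Finset.prod_ne_zero_iff]
    intro i hi
    exact zpow_ne_zero _ (hd0 i hi)
  intro j
  by_cases hS : j ∈ S
  · obtain ⟨h, u, hh, hu, hfe, hun⟩ := hn j hS
    -- split the product
    have hprod : ∏ i ∈ S, d i ^ n i = d j ^ n j * ∏ i ∈ S.erase j, d i ^ n i :=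
      (Finset.mul_prod_erase S (fun i => d i ^ n i) hS).symm
    have hrest : IsUnitOf (V j) (∏ i ∈ S.erase j, d i ^ n i) := by
      refine isUnitOf_prod _ _ fun i hi => ?_
      have hiS : i ∈ S := Finset.mem_of_mem_erase hi
      have hne : j ≠ i := fun h => (Finset.ne_of_mem_erase hi) h.symm
      exact isUnitOf_zpow (hd_unit i hiS j hne) _
    have hd0' : d j ^ n j ≠ 0 := zpow_ne_zero _ (hd0 j hS)
    have hrest0 : (∏ i ∈ S.erase j, d i ^ n i) ≠ 0 := hrest.ne_zero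
    have e : f * ((∏ i ∈ S, d i ^ n i) ^ m)⁻¹ =
        u * (h * (d j ^ n j)⁻¹) ^ m * ((∏ i ∈ S.erase j, d i ^ n i) ^ m)⁻¹ := by
      rw [hprod, hfe]
      generalize d j ^ n j = X at hd0' ⊢
      generalize (∏ i ∈ S.erase j, d i ^ n i) = Y at hrest0 ⊢
      rw [mul_pow, mul_pow, inv_pow]
      field_simp
    rw [e]
    exact (hu.mul (isUnitOf_pow hun m)).mul (isUnitOf_pow hrest m).inv
  · have hD : IsUnitOf (V j) (∏ i ∈ S, d i ^ n i) := by
      refine isUnitOf_prod _ _ fun i hi => ?_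
      have hne : j ≠ i := fun h => hS (h ▸ hi)
      exact isUnitOf_zpow (hd_unit i hi j hne) _
    exact (hf_unit j hS).mul (isUnitOf_pow hD m).inv

end Horizontal

section LocFact

variable {B : Type*} [CommRing B] [IsDomain B] [IsNoetherianRing B] [IsIntegrallyClosed B]
  {F : Type*} [Field F] [Algebra B F] [IsFractionRing B F]

theorem tauSubOne_pow (τ : F ≃+* F) (f : F) (m : ℕ) :
    tauSubOne τ (f ^ m) = tauSubOne τ f ^ m := by
  unfold tauSubOne
  rw [map_pow, mul_pow, inv_pow]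

/-- **LOCFACT.**  Local factorisation of `(τ' - 1)(τ - 1) f` at a closed point of the special
fibre: `(τ' - 1)(τ - 1) f = (1 + w c) · ((τ' - 1)(τ - 1) D) ^ m`. -/
theorem locfact (w : B) (hw0 : w ≠ 0) (τ τ' : F ≃+* F) (σ σ' : B →+* B)
    (hστ : ∀ b, algebraMap B F (σ b) = τ (algebraMap B F b))
    (hσ : ∀ b, w ∣ σ b - b) (hw : σ w ∣ w)
    (hστ' : ∀ b, algebraMap B F (σ' b) = τ' (algebraMap B F b))
    (hσ' : ∀ b, w ∣ σ' b - b)
    {ι : Type*} (V : ι → ValuationSubring F)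
    (hK : ∀ x : F, x ≠ 0 → (∀ j, IsUnitOf (V j) x) →
      ∃ (k : ℕ) (a : B), algebraMap B F w ^ k * x = algebraMap B F a)
    {m : ℕ} {f : F} (hf : f ≠ 0)
    (S : Finset ι) (d : ι → F)
    (hd0 : ∀ i ∈ S, d i ≠ 0)
    (hd_unif : ∀ i ∈ S, ∀ g : F, g ≠ 0 → ∃ n : ℤ, IsUnitOf (V i) (g * (d i ^ n)⁻¹))
    (hd_unit : ∀ i ∈ S, ∀ j, j ≠ i → IsUnitOf (V j) (d i))
    (hf_unit : ∀ j, j ∉ S → IsUnitOf (V j) f)
    (hdiv : ∀ i ∈ S, ∃ h u : F, h ≠ 0 ∧ IsUnitOf (V i) u ∧ f = u * h ^ m) :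
    ∃ D : F, D ≠ 0 ∧ ∃ c : B,
      tauSubOne τ' (tauSubOne τ f) =
        algebraMap B F (1 + w * c) * tauSubOne τ' (tauSubOne τ D) ^ m := by
  obtain ⟨D, hD0, hD⟩ := exists_horizontal_factor V S d hd0 hd_unif hd_unit hf_unit hdiv
  refine ⟨D, hD0, ?_⟩
  set ε : F := f * (D ^ m)⁻¹ with hε
  have hDm : D ^ m ≠ 0 := pow_ne_zero m hD0
  have hε0 : ε ≠ 0 := mul_ne_zero hf (inv_ne_zero hDm)
  obtain ⟨k, a, ha⟩ := hK ε hε0 hD
  obtain ⟨l, b, hb⟩ := hK ε⁻¹ (inv_ne_zero hε0) (fun j => (hD j).inv)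
  obtain ⟨c, hc⟩ := tauSubOne_twice_vertical w hw0 τ τ' σ σ' hστ hσ hw hστ' hσ' hε0 ha hb
  refine ⟨c, ?_⟩
  have hfe : f = ε * D ^ m := by rw [hε]; field_simp
  rw [← hc, ← tauSubOne_pow, ← tauSubOne_pow, ← tauSubOne_mul, ← tauSubOne_mul, ← hfe]

/-- **LOCFACT with the Gauss congruence.**  In addition `(τ' - 1)(τ - 1) D ∈ 1 + 𝔪_W` for every
valuation subring `W` of `F` on which `τ, τ'` are inertial and whose values are attained on the
constants `Kc` (the Gauss valuations of the components of the special fibre). -/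
theorem locfact_gauss (w : B) (hw0 : w ≠ 0) (τ τ' : F ≃+* F) (σ σ' : B →+* B)
    (hστ : ∀ b, algebraMap B F (σ b) = τ (algebraMap B F b))
    (hσ : ∀ b, w ∣ σ b - b) (hw : σ w ∣ w)
    (hστ' : ∀ b, algebraMap B F (σ' b) = τ' (algebraMap B F b))
    (hσ' : ∀ b, w ∣ σ' b - b)
    {ι : Type*} (V : ι → ValuationSubring F)
    (hK : ∀ x : F, x ≠ 0 → (∀ j, IsUnitOf (V j) x) →
      ∃ (k : ℕ) (a : B), algebraMap B F w ^ k * x = algebraMap B F a)
    {m : ℕ} {f : F} (hf : f ≠ 0)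
    (S : Finset ι) (d : ι → F)
    (hd0 : ∀ i ∈ S, d i ≠ 0)
    (hd_unif : ∀ i ∈ S, ∀ g : F, g ≠ 0 → ∃ n : ℤ, IsUnitOf (V i) (g * (d i ^ n)⁻¹))
    (hd_unit : ∀ i ∈ S, ∀ j, j ≠ i → IsUnitOf (V j) (d i))
    (hf_unit : ∀ j, j ∉ S → IsUnitOf (V j) f)
    (hdiv : ∀ i ∈ S, ∃ h u : F, h ≠ 0 ∧ IsUnitOf (V i) u ∧ f = u * h ^ m)
    (Kc : Subfield F) (𝒲 : Set (ValuationSubring F))
    (hW : ∀ W ∈ 𝒲, HasConstValues Kc W ∧ InInertia W τ ∧ PreservesConstValues Kc W τ ∧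
      InInertia W τ') :
    ∃ (h : F) (c : B), h ≠ 0 ∧
      tauSubOne τ' (tauSubOne τ f) = algebraMap B F (1 + w * c) * h ^ m ∧
      ∀ W ∈ 𝒲, OneAddNonunits W h := by
  obtain ⟨D, hD0, c, hc⟩ := locfact w hw0 τ τ' σ σ' hστ hσ hw hστ' hσ' V hK hf S d hd0
    hd_unif hd_unit hf_unit hdiv
  refine ⟨tauSubOne τ' (tauSubOne τ D), c, tauSubOne_ne_zero τ' (tauSubOne_ne_zero τ hD0), hc, ?_⟩
  intro W hWm
  obtain ⟨h1, h2, h3, h4⟩ := hW W hWm
  exact oneAddNonunits_twice' h1 h2 h3 h4 hD0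

end LocFact

end Fermat.Agent.A2.H129
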