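import Mathlib
import Fermat.Agent.A2.H129.LocFactB

/-!
# A2 / LOCFACT, part C: the horizontal prime divisors of a noetherian normal domain

`B` a noetherian integrally closed domain with fraction field `F`, `w ∈ B`.  The *horizontal
primes* are the primes `P` of `B` with `w ∉ P` and `B_P` a discrete valuation ring
(`HorPrime B w`); `horVal F i : ValuationSubring F` is the local ring `B_P ⊆ F`.

* `isUnitOf_horVal_iff` : `x` is a unit of `B_P` iff `x s = t` with `s, t ∉ P`.
* `exists_pow_mul_mem_of_horVal` (**Krull**) : if `x ≠ 0` is a unit at every horizontal prime, then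
  `w ^ k x ∈ B` for some `k`.
* `exists_zpow_unit_of_LP` : a local generator `d` of `P` (`d ∈ P`, `a • P ≤ (d)`, `a ∉ P`) is a
  uniformiser of `B_P`.
* `isUnitOf_horVal_of_LP` : and a unit at every other horizontal prime.
* `finite_support` : `f ≠ 0` is a unit at all but finitely many horizontal primes.
* `locfact_of_LP` : **LOCFACT in prime-ideal language**.
-/

set_option autoImplicit false
set_option linter.unusedSectionVars false
set_option linter.style.haveILetI false

namespace Fermat.Agent.A2.H129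

section LocSubring

variable {B : Type*} [CommRing B] [IsDomain B]

/-- divisibility in the localisation at a prime, read in `B`. -/
theorem dvd_atPrime_iff (P : Ideal B) [hP : P.IsPrime] (a b : B) :
    algebraMap B (Localization.AtPrime P) a ∣ algebraMap B (Localization.AtPrime P) b ↔
      ∃ t, t ∉ P ∧ a ∣ t * b := by
  have hinj : Function.Injective (algebraMap B (Localization.AtPrime P)) :=
    IsLocalization.injective (Localization.AtPrime P) P.primeCompl_le_nonZeroDivisors
  constructor
  · rintro ⟨y, hy⟩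
    obtain ⟨c, t, rfl⟩ := IsLocalization.exists_mk'_eq P.primeCompl y
    refine ⟨t, t.2, c, ?_⟩
    apply hinj
    rw [map_mul, map_mul, hy]
    have := IsLocalization.mk'_spec (Localization.AtPrime P) c t
    linear_combination (algebraMap B (Localization.AtPrime P) a) * this
  · rintro ⟨t, ht, c, hc⟩
    refine ⟨IsLocalization.mk' (Localization.AtPrime P) c (⟨t, ht⟩ : P.primeCompl), ?_⟩
    have h1 := IsLocalization.mk'_spec (Localization.AtPrime P) c (⟨t, ht⟩ : P.primeCompl)
    have h2 : algebraMap B (Localization.AtPrime P) t * algebraMap B (Localization.AtPrime P) b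
        = algebraMap B (Localization.AtPrime P) a * algebraMap B (Localization.AtPrime P) c := by
      rw [← map_mul, ← map_mul, hc]
    have hu : IsUnit (algebraMap B (Localization.AtPrime P) t) :=
      (IsLocalization.AtPrime.isUnit_to_map_iff (Localization.AtPrime P) P t).2 ht
    apply hu.mul_left_cancel
    rw [h2]
    simp only at h1
    linear_combination (-(algebraMap B (Localization.AtPrime P) a)) * h1

variable (F : Type*) [Field F] [Algebra B F] [IsFractionRing B F]

/-- the local ring `B_P` as a subring of `F`. -/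
def locSubring (P : Ideal B) [hP : P.IsPrime] : Subring F where
  carrier := {x | ∃ a s : B, s ∉ P ∧ x * algebraMap B F s = algebraMap B F a}
  mul_mem' := by
    rintro x y ⟨a, s, hs, hx⟩ ⟨b, t, ht, hy⟩
    refine ⟨a * b, s * t, fun h => (hP.mem_or_mem h).elim hs ht, ?_⟩
    rw [map_mul, map_mul, ← hx, ← hy]; ring
  one_mem' := ⟨1, 1, fun h => hP.ne_top ((Ideal.eq_top_iff_one _).2 h), by simp⟩
  add_mem' := by
    rintro x y ⟨a, s, hs, hx⟩ ⟨b, t, ht, hy⟩
    refine ⟨a * t + b * s, s * t, fun h => (hP.mem_or_mem h).elim hs ht, ?_⟩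
    rw [map_add, map_mul, map_mul, map_mul, ← hx, ← hy]; ring
  zero_mem' := ⟨0, 1, fun h => hP.ne_top ((Ideal.eq_top_iff_one _).2 h), by simp⟩
  neg_mem' := by
    rintro x ⟨a, s, hs, hx⟩
    exact ⟨-a, s, hs, by rw [map_neg, ← hx]; ring⟩

theorem mem_locSubring_iff (P : Ideal B) [P.IsPrime] (x : F) :
    x ∈ locSubring F P ↔ ∃ a s : B, s ∉ P ∧ x * algebraMap B F s = algebraMap B F a :=
  Iff.rfl

theorem algebraMap_mem_locSubring (P : Ideal B) [hP : P.IsPrime] (b : B) :
    algebraMap B F b ∈ locSubring F P :=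
  ⟨b, 1, fun h => hP.ne_top ((Ideal.eq_top_iff_one _).2 h), by simp⟩

/-- the local ring `B_P` as a valuation subring of `F`, when it is a valuation ring. -/
def locValSubring (P : Ideal B) [hP : P.IsPrime] [hV : ValuationRing (Localization.AtPrime P)] :
    ValuationSubring F :=
  { locSubring F P with
    mem_or_inv_mem' := by
      intro x
      have hinj : Function.Injective (algebraMap B F) := IsFractionRing.injective B F
      obtain ⟨α, β, hβ, rfl⟩ := IsFractionRing.div_surjective (A := B) x
      have hβ0 : (β : B) ≠ 0 := nonZeroDivisors.ne_zero hβ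
      have hβF : algebraMap B F β ≠ 0 := fun h => hβ0 (hinj (by rw [h, map_zero]))
      by_cases hα0 : α = 0
      · left
        subst hα0
        rw [map_zero, zero_div]
        exact (locSubring F P).zero_mem
      have hαF : algebraMap B F α ≠ 0 := fun h => hα0 (hinj (by rw [h, map_zero]))
      rcases ValuationRing.dvd_total (algebraMap B (Localization.AtPrime P) α)
        (algebraMap B (Localization.AtPrime P) β) with h | h
      · right
        obtain ⟨t, ht, c, hc⟩ := (dvd_atPrime_iff P α β).1 h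
        refine ⟨c, t, ht, ?_⟩
        have hcF : algebraMap B F t * algebraMap B F β = algebraMap B F α * algebraMap B F c := by
          rw [← map_mul, ← map_mul, hc]
        rw [inv_div]
        field_simp
        linear_combination hcF
      · left
        obtain ⟨t, ht, c, hc⟩ := (dvd_atPrime_iff P β α).1 h
        refine ⟨c, t, ht, ?_⟩
        have hcF : algebraMap B F t * algebraMap B F α = algebraMap B F β * algebraMap B F c := by
          rw [← map_mul, ← map_mul, hc]
        field_simp
        linear_combination hcF }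

theorem mem_locValSubring_iff (P : Ideal B) [P.IsPrime] [ValuationRing (Localization.AtPrime P)]
    (x : F) :
    x ∈ locValSubring F P ↔ ∃ a s : B, s ∉ P ∧ x * algebraMap B F s = algebraMap B F a :=
  Iff.rfl

/-- `IsUnitOf V x ↔ x ∈ V ∧ x⁻¹ ∈ V`. -/
theorem isUnitOf_iff_mem {V : ValuationSubring F} {x : F} (hx : x ≠ 0) :
    IsUnitOf V x ↔ x ∈ V ∧ x⁻¹ ∈ V := by
  unfold IsUnitOf
  rw [← V.valuation_le_one_iff, ← V.valuation_le_one_iff, map_inv₀]
  have hv : V.valuation x ≠ 0 := (Valuation.ne_zero_iff _).2 hx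
  constructor
  · intro h
    rw [h]
    simp
  · rintro ⟨h1, h2⟩
    refine le_antisymm h1 ?_
    rwa [inv_le_one₀ (zero_lt_iff.2 hv)] at h2

/-- units of `B_P`: `x s = t` with `s, t ∉ P`. -/
theorem isUnitOf_locValSubring_iff (P : Ideal B) [hP : P.IsPrime]
    [ValuationRing (Localization.AtPrime P)] {x : F} (hx : x ≠ 0) :
    IsUnitOf (locValSubring F P) x ↔
      ∃ s t : B, s ∉ P ∧ t ∉ P ∧ x * algebraMap B F s = algebraMap B F t := by
  have hinj : Function.Injective (algebraMap B F) := IsFractionRing.injective B F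
  rw [isUnitOf_iff_mem F hx, mem_locValSubring_iff, mem_locValSubring_iff]
  constructor
  · rintro ⟨⟨a, s, hs, h1⟩, ⟨a', s', hs', h2⟩⟩
    refine ⟨s, a, hs, ?_, h1⟩
    intro ha
    have : a * a' = s * s' := by
      apply hinj
      rw [map_mul, map_mul, ← h1, ← h2]
      field_simp
    have hmem : s * s' ∈ P := by rw [← this]; exact P.mul_mem_right _ ha
    exact (hP.mem_or_mem hmem).elim hs hs'
  · rintro ⟨s, t, hs, ht, h⟩
    refine ⟨⟨t, s, hs, h⟩, ⟨s, t, ht, ?_⟩⟩
    have htF : algebraMap B F t ≠ 0 := by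
      intro h0
      apply ht
      have : t = 0 := hinj (by rw [h0, map_zero])
      rw [this]; exact P.zero_mem
    rw [← h]
    field_simp

end LocSubring

section Hor

variable {B : Type*} [CommRing B] [IsDomain B]

/-- a nonzero prime contained in a prime `P` with `B_P` a discrete valuation ring equals `P`. -/
theorem eq_of_le_of_dvr {P Q : Ideal B} [hP : P.IsPrime] [hQ : Q.IsPrime]
    [hdvr : IsDiscreteValuationRing (Localization.AtPrime P)] (hQ0 : Q ≠ ⊥) (hle : Q ≤ P) :
    Q = P := by
  have hinj : Function.Injective (algebraMap B (Localization.AtPrime P)) :=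
    IsLocalization.injective (Localization.AtPrime P) P.primeCompl_le_nonZeroDivisors
  have hdisj : Disjoint (P.primeCompl : Set B) (Q : Set B) := by
    rw [Set.disjoint_left]
    intro x hx hxQ
    exact hx (hle hxQ)
  have hprime : (Q.map (algebraMap B (Localization.AtPrime P))).IsPrime :=
    IsLocalization.isPrime_of_isPrime_disjoint P.primeCompl (Localization.AtPrime P) Q hQ hdisj
  have hne : Q.map (algebraMap B (Localization.AtPrime P)) ≠ ⊥ := by
    obtain ⟨q, hq, hq0⟩ := Submodule.exists_mem_ne_zero_of_ne_bot hQ0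
    intro h
    have : algebraMap B (Localization.AtPrime P) q ∈
        Q.map (algebraMap B (Localization.AtPrime P)) := Ideal.mem_map_of_mem _ hq
    rw [h, Ideal.mem_bot] at this
    exact hq0 (hinj (this.trans (map_zero _).symm))
  have hmax : (Q.map (algebraMap B (Localization.AtPrime P))).IsMaximal :=
    hprime.isMaximal hne
  have heq : Q.map (algebraMap B (Localization.AtPrime P)) =
      IsLocalRing.maximalIdeal (Localization.AtPrime P) := IsLocalRing.eq_maximalIdeal hmax
  have h1 : (Q.map (algebraMap B (Localization.AtPrime P))).under B = Q :=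
    IsLocalization.under_map_of_isPrime_disjoint P.primeCompl (Localization.AtPrime P) hQ hdisj
  have h2 : (IsLocalRing.maximalIdeal (Localization.AtPrime P)).under B = P :=
    IsLocalization.AtPrime.under_maximalIdeal (Localization.AtPrime P) P
  rw [← h1, heq, h2]

/-- In `B_P` (a DVR) with local generator `d` of `P`: every nonzero `α ∈ B` is
`(unit) · d ^ n`. -/
theorem exists_pow_of_LP {P : Ideal B} [hP : P.IsPrime]
    [hdvr : IsDiscreteValuationRing (Localization.AtPrime P)] {d a : B} (hd : d ∈ P)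
    (ha : a ∉ P) (hLP : ∀ p ∈ P, d ∣ a * p) {α : B} (hα : α ≠ 0) :
    ∃ (n : ℕ) (s t : B), s ∉ P ∧ t ∉ P ∧ s * α = t * d ^ n := by
  have hinj : Function.Injective (algebraMap B (Localization.AtPrime P)) :=
    IsLocalization.injective (Localization.AtPrime P) P.primeCompl_le_nonZeroDivisors
  -- `d` is a uniformiser
  have hmax : IsLocalRing.maximalIdeal (Localization.AtPrime P) =
      Ideal.span {algebraMap B (Localization.AtPrime P) d} := by
    apply le_antisymm
    · intro y hy
      obtain ⟨p, s, rfl⟩ := IsLocalization.exists_mk'_eq P.primeCompl y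
      have hp : p ∈ P := (IsLocalization.AtPrime.mk'_mem_maximal_iff
        (Localization.AtPrime P) P p s).1 hy
      obtain ⟨q, hq⟩ := hLP p hp
      rw [Ideal.mem_span_singleton]
      refine ⟨IsLocalization.mk' (Localization.AtPrime P) q
        (s * (⟨a, ha⟩ : P.primeCompl)), ?_⟩
      rw [IsLocalization.mul_mk'_eq_mk'_of_mul, ← hq, mul_comm a p]
      exact (IsLocalization.mk'_cancel p s (⟨a, ha⟩ : P.primeCompl)).symm
    · rw [Ideal.span_le, Set.singleton_subset_iff, SetLike.mem_coe,
        IsLocalization.AtPrime.to_map_mem_maximal_iff (Localization.AtPrime P) P]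
      exact hd
  have hirr : Irreducible (algebraMap B (Localization.AtPrime P) d) :=
    (IsDiscreteValuationRing.irreducible_iff_uniformizer _).2 hmax
  have hα' : algebraMap B (Localization.AtPrime P) α ≠ 0 := fun h =>
    hα (hinj (h.trans (map_zero _).symm))
  obtain ⟨n, u, hu⟩ := IsDiscreteValuationRing.eq_unit_mul_pow_irreducible hα' hirr
  obtain ⟨t, s, hts⟩ := IsLocalization.exists_mk'_eq P.primeCompl (u : Localization.AtPrime P)
  have htu : t ∈ P.primeCompl := by
    rw [← IsLocalization.AtPrime.isUnit_mk'_iff (Localization.AtPrime P) P t s, hts]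
    exact u.isUnit
  refine ⟨n, s, t, s.2, htu, ?_⟩
  apply hinj
  rw [map_mul, map_mul, map_pow, hu, ← hts]
  have := IsLocalization.mk'_spec (Localization.AtPrime P) t s
  linear_combination ((algebraMap B (Localization.AtPrime P) d) ^ n) * this

variable (B) in
/-- the horizontal prime divisors: primes `P` with `w ∉ P` and `B_P` a DVR. -/
structure HorPrime (w : B) where
  /-- the prime ideal -/
  P : Ideal B
  isPrime : P.IsPrime
  not_mem : w ∉ P
  dvr : IsDiscreteValuationRing (Localization.AtPrime P)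

attribute [instance] HorPrime.isPrime HorPrime.dvr

theorem HorPrime.ext' {w : B} {i j : HorPrime B w} (h : i.P = j.P) : i = j := by
  cases i; cases j
  simp only at h
  subst h
  rfl

variable (F : Type*) [Field F] [Algebra B F] [IsFractionRing B F]

/-- the valuation subring `B_P ⊆ F` of a horizontal prime. -/
def horVal {w : B} (i : HorPrime B w) : ValuationSubring F :=
  locValSubring F i.P

theorem isUnitOf_horVal_iff {w : B} (i : HorPrime B w) {x : F} (hx : x ≠ 0) :
    IsUnitOf (horVal F i) x ↔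
      ∃ s t : B, s ∉ i.P ∧ t ∉ i.P ∧ x * algebraMap B F s = algebraMap B F t :=
  isUnitOf_locValSubring_iff F i.P hx

theorem isUnitOf_horVal_algebraMap {w : B} (i : HorPrime B w) {b : B} (hb : b ∉ i.P) :
    IsUnitOf (horVal F i) (algebraMap B F b) := by
  have hinj : Function.Injective (algebraMap B F) := IsFractionRing.injective B F
  have hb0 : algebraMap B F b ≠ 0 := by
    intro h0
    apply hb
    have : b = 0 := hinj (by rw [h0, map_zero])
    rw [this]; exact i.P.zero_mem
  rw [isUnitOf_horVal_iff F i hb0]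
  exact ⟨1, b, fun h => i.isPrime.ne_top ((Ideal.eq_top_iff_one _).2 h), hb, by simp⟩

/-- a divisor of a power of `w` is a unit at every horizontal prime -/
theorem not_mem_of_dvd_pow {w : B} (i : HorPrime B w) {a : B} {n : ℕ} (ha : a ∣ w ^ n) :
    a ∉ i.P := by
  intro h
  obtain ⟨b, hb⟩ := ha
  have : w ^ n ∈ i.P := by rw [hb]; exact i.P.mul_mem_right _ h
  exact i.not_mem (i.isPrime.mem_of_pow_mem n this)

theorem HorPrime.ne_bot {w : B} (i : HorPrime B w) : i.P ≠ ⊥ := by
  intro hbot
  have hfield : IsField (Localization.AtPrime i.P) := by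
    have h0 : IsLocalRing.maximalIdeal (Localization.AtPrime i.P) = ⊥ := by
      rw [eq_bot_iff]
      intro y hy
      obtain ⟨p, s, rfl⟩ := IsLocalization.exists_mk'_eq i.P.primeCompl y
      have hp : p ∈ i.P := (IsLocalization.AtPrime.mk'_mem_maximal_iff
        (Localization.AtPrime i.P) i.P p s).1 hy
      rw [hbot, Ideal.mem_bot] at hp
      rw [hp, IsLocalization.mk'_zero]
      exact Ideal.zero_mem _
    exact IsLocalRing.isField_iff_maximalIdeal_eq.2 h0
  exact IsDiscreteValuationRing.not_isField (Localization.AtPrime i.P) hfield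

/-- **LP ⇒ uniformiser.** -/
theorem exists_zpow_unit_of_LP {w : B} (i : HorPrime B w) {d a : B} (hd : d ∈ i.P)
    (ha : a ∉ i.P) (hLP : ∀ p ∈ i.P, d ∣ a * p) {g : F} (hg : g ≠ 0) :
    ∃ n : ℤ, IsUnitOf (horVal F i) (g * (algebraMap B F d ^ n)⁻¹) := by
  have hinj : Function.Injective (algebraMap B F) := IsFractionRing.injective B F
  obtain ⟨α, β, hβ, rfl⟩ := IsFractionRing.div_surjective (A := B) g
  have hβ0 : (β : B) ≠ 0 := nonZeroDivisors.ne_zero hβ
  have hα0 : α ≠ 0 := by
    rintro rfl
    rw [map_zero, zero_div] at hg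
    exact hg rfl
  obtain ⟨n₁, s₁, t₁, hs₁, ht₁, h₁⟩ := exists_pow_of_LP hd ha hLP hα0
  obtain ⟨n₂, s₂, t₂, hs₂, ht₂, h₂⟩ := exists_pow_of_LP hd ha hLP hβ0
  have hd0 : d ≠ 0 := by
    rintro rfl
    apply i.ne_bot
    rw [eq_bot_iff]
    intro p hp
    obtain ⟨q, hq⟩ := hLP p hp
    rw [zero_mul] at hq
    rcases mul_eq_zero.1 hq with h | h
    · exact absurd (h ▸ i.P.zero_mem) ha
    · rw [h]; exact Ideal.zero_mem _
  have hdF : algebraMap B F d ≠ 0 := fun h => hd0 (hinj (by rw [h, map_zero]))
  have hβF : algebraMap B F β ≠ 0 := fun h => hβ0 (hinj (by rw [h, map_zero]))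
  have hαF : algebraMap B F α ≠ 0 := fun h => hα0 (hinj (by rw [h, map_zero]))
  refine ⟨(n₁ : ℤ) - n₂, ?_⟩
  have hx0 : algebraMap B F α / algebraMap B F β *
      (algebraMap B F d ^ ((n₁ : ℤ) - n₂))⁻¹ ≠ 0 :=
    mul_ne_zero hg (inv_ne_zero (zpow_ne_zero _ hdF))
  rw [isUnitOf_horVal_iff F i hx0]
  refine ⟨s₁ * t₂, t₁ * s₂, fun h => (i.isPrime.mem_or_mem h).elim hs₁ ht₂,
    fun h => (i.isPrime.mem_or_mem h).elim ht₁ hs₂, ?_⟩
  have h₁F : algebraMap B F s₁ * algebraMap B F α = algebraMap B F t₁ * algebraMap B F d ^ n₁ := by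
    rw [← map_pow, ← map_mul, ← map_mul, h₁]
  have h₂F : algebraMap B F s₂ * algebraMap B F β = algebraMap B F t₂ * algebraMap B F d ^ n₂ := by
    rw [← map_pow, ← map_mul, ← map_mul, h₂]
  rw [zpow_sub₀ hdF, zpow_natCast, zpow_natCast, map_mul, map_mul]
  have hdn₁ : algebraMap B F d ^ n₁ ≠ 0 := pow_ne_zero _ hdF
  have hdn₂ : algebraMap B F d ^ n₂ ≠ 0 := pow_ne_zero _ hdF
  generalize algebraMap B F d ^ n₁ = X₁ at h₁F hdn₁ ⊢
  generalize algebraMap B F d ^ n₂ = X₂ at h₂F hdn₂ ⊢
  field_simp
  linear_combination (algebraMap B F t₂ * X₂) * h₁F - (algebraMap B F t₁ * X₁) * h₂F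

/-- **LP ⇒ unit at the other horizontal primes.** -/
theorem isUnitOf_horVal_of_LP {w : B} (i j : HorPrime B w) (hij : j ≠ i) {d a : B}
    (ha : a ∉ j.P) (hLP : ∀ p ∈ i.P, d ∣ a * p) :
    IsUnitOf (horVal F j) (algebraMap B F d) := by
  refine isUnitOf_horVal_algebraMap F j fun hd => hij ?_
  have hle : i.P ≤ j.P := by
    intro p hp
    obtain ⟨q, hq⟩ := hLP p hp
    have : a * p ∈ j.P := by rw [hq]; exact j.P.mul_mem_right _ hd
    exact (j.isPrime.mem_or_mem this).resolve_left ha
  exact HorPrime.ext' (eq_of_le_of_dvr i.ne_bot hle).symm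

/-- **Finiteness of the support.** -/
theorem finite_support [IsNoetherianRing B] (w : B) {f : F} (hf : f ≠ 0) :
    {j : HorPrime B w | ¬ IsUnitOf (horVal F j) f}.Finite := by
  have hinj : Function.Injective (algebraMap B F) := IsFractionRing.injective B F
  obtain ⟨α, β, hβ, rfl⟩ := IsFractionRing.div_surjective (A := B) f
  have hβ0 : (β : B) ≠ 0 := nonZeroDivisors.ne_zero hβ
  have hα0 : α ≠ 0 := by
    rintro rfl
    rw [map_zero, zero_div] at hf
    exact hf rfl
  have hβF : algebraMap B F β ≠ 0 := fun h => hβ0 (hinj (by rw [h, map_zero]))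
  have hfin := Ideal.finite_minimalPrimes_of_isNoetherianRing B (Ideal.span {α * β})
  have hpre : ((fun j : HorPrime B w => j.P) ⁻¹' (Ideal.span {α * β}).minimalPrimes).Finite :=
    hfin.preimage (fun i _ j _ h => HorPrime.ext' h)
  refine hpre.subset ?_
  intro j hj
  rw [Set.mem_ofPred_eq, isUnitOf_horVal_iff F j hf] at hj
  have hmem : α * β ∈ j.P := by
    by_contra hn
    apply hj
    have hα : α ∉ j.P := fun h => hn (j.P.mul_mem_right _ h)
    have hβ' : β ∉ j.P := fun h => hn (j.P.mul_mem_left _ h)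
    exact ⟨β, α, hβ', hα, by field_simp⟩
  rw [Set.mem_preimage, Ideal.minimalPrimes, Set.mem_ofPred_eq]
  refine ⟨⟨j.isPrime, by rw [Ideal.span_le, Set.singleton_subset_iff]; exact hmem⟩, ?_⟩
  rintro Q ⟨hQ, hQle⟩ hQj
  haveI := hQ
  have hQ0 : Q ≠ ⊥ := by
    intro h
    have : α * β ∈ Q := hQle (Ideal.subset_span rfl)
    rw [h, Ideal.mem_bot] at this
    exact (mul_ne_zero hα0 hβ0) this
  exact (eq_of_le_of_dvr hQ0 hQj).ge

/-- **Krull.**  If `x ≠ 0` is a unit at every horizontal prime, then `w ^ k x ∈ B`. -/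
theorem exists_pow_mul_mem_of_horVal [IsNoetherianRing B] [IsIntegrallyClosed B] (w : B)
    {x : F} (hx : x ≠ 0) (h : ∀ j : HorPrime B w, IsUnitOf (horVal F j) x) :
    ∃ (k : ℕ) (a : B), algebraMap B F w ^ k * x = algebraMap B F a := by
  classical
  have hinj : Function.Injective (algebraMap B F) := IsFractionRing.injective B F
  obtain ⟨α, β, hβ, rfl⟩ := IsFractionRing.div_surjective (A := B) x
  have hβ0 : (β : B) ≠ 0 := nonZeroDivisors.ne_zero hβ
  have hβF : algebraMap B F β ≠ 0 := fun h => hβ0 (hinj (by rw [h, map_zero]))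
  -- local statement at each associated prime of `(β)`
  have hloc : ∀ P : Ideal B, ∃ n : ℕ, IsAssociatedPrime P (B ⧸ Ideal.span {β}) →
      ∃ s : B, s ∉ P ∧ β ∣ s * (w ^ n * α) := by
    intro P
    by_cases hP : IsAssociatedPrime P (B ⧸ Ideal.span {β})
    · haveI := hP.isPrime
      haveI hdvr : IsDiscreteValuationRing (Localization.AtPrime P) :=
        Fermat.Agent.A2.H969.isDiscreteValuationRing_of_isAssociatedPrime β hβ0 P hP
      by_cases hw : w ∈ P
      · -- vertical prime: `β ∣ s w ^ n`
        have hinjP : Function.Injective (algebraMap B (Localization.AtPrime P)) :=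
          IsLocalization.injective (Localization.AtPrime P) P.primeCompl_le_nonZeroDivisors
        obtain ⟨ϖ, hϖ⟩ := IsDiscreteValuationRing.exists_irreducible (Localization.AtPrime P)
        have hβ' : algebraMap B (Localization.AtPrime P) β ≠ 0 := fun h =>
          hβ0 (hinjP (h.trans (map_zero _).symm))
        obtain ⟨n, u, hu⟩ := IsDiscreteValuationRing.eq_unit_mul_pow_irreducible hβ' hϖ
        have hwm : algebraMap B (Localization.AtPrime P) w ∈
            IsLocalRing.maximalIdeal (Localization.AtPrime P) :=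
          (IsLocalization.AtPrime.to_map_mem_maximal_iff (Localization.AtPrime P) P w).2 hw
        rw [hϖ.maximalIdeal_eq, Ideal.mem_span_singleton] at hwm
        have h1 : ϖ ^ n ∣ algebraMap B (Localization.AtPrime P) w ^ n := pow_dvd_pow_of_dvd hwm n
        have h2 : algebraMap B (Localization.AtPrime P) β ∣
            algebraMap B (Localization.AtPrime P) (w ^ n) := by
          rw [map_pow, hu]
          obtain ⟨c, hc⟩ := h1
          refine ⟨((u⁻¹ : (Localization.AtPrime P)ˣ) : Localization.AtPrime P) * c, ?_⟩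
          rw [hc]
          have huu : (u : Localization.AtPrime P) *
              ((u⁻¹ : (Localization.AtPrime P)ˣ) : Localization.AtPrime P) = 1 := Units.mul_inv u
          linear_combination (-(ϖ ^ n * c)) * huu
        obtain ⟨t, ht, c, hc⟩ := (dvd_atPrime_iff P β (w ^ n)).1 h2
        exact ⟨n, fun _ => ⟨t, ht, c * α, by rw [← mul_assoc, hc]; ring⟩⟩
      · -- horizontal prime: `x ∈ B_P`
        refine ⟨0, fun _ => ?_⟩
        have hu := h ⟨P, hP.isPrime, hw, hdvr⟩
        rw [isUnitOf_horVal_iff F _ hx] at hu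
        obtain ⟨s, t, hs, -, hst⟩ := hu
        refine ⟨s, hs, t, ?_⟩
        apply hinj
        rw [pow_zero, one_mul, map_mul, map_mul, ← hst]
        field_simp
    · exact ⟨0, fun h => absurd h hP⟩
  choose n hn using hloc
  have hfin : (associatedPrimes B (B ⧸ Ideal.span {β})).Finite := associatedPrimes.finite B _
  set k := hfin.toFinset.sup n with hk
  have hmem : w ^ k * α ∈ Ideal.span {β} := by
    refine Fermat.Agent.A2.H969.mem_span_singleton_of_forall_isAssociatedPrime β (w ^ k * α) ?_
    intro P hP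
    obtain ⟨s, hs, c, hc⟩ := hn P hP
    have hle : n P ≤ k := Finset.le_sup (f := n) (hfin.mem_toFinset.2 hP)
    refine ⟨s, hs, ?_⟩
    rw [Ideal.mem_span_singleton]
    refine ⟨w ^ (k - n P) * c, ?_⟩
    have e : w ^ k = w ^ (k - n P) * w ^ n P := by
      rw [← pow_add, Nat.sub_add_cancel hle]
    rw [e]
    linear_combination (w ^ (k - n P)) * hc
  rw [Ideal.mem_span_singleton] at hmem
  obtain ⟨a, ha⟩ := hmem
  refine ⟨k, a, ?_⟩
  have haF : algebraMap B F w ^ k * algebraMap B F α = algebraMap B F β * algebraMap B F a := by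
    rw [← map_pow, ← map_mul, ← map_mul, ha]
  field_simp
  linear_combination haF

/-- a local generator is nonzero -/
theorem ne_zero_of_LP {w : B} (i : HorPrime B w) {d a : B} (ha : a ∉ i.P)
    (hLP : ∀ p ∈ i.P, d ∣ a * p) : d ≠ 0 := by
  rintro rfl
  apply i.ne_bot
  rw [eq_bot_iff]
  intro p hp
  obtain ⟨q, hq⟩ := hLP p hp
  rw [zero_mul] at hq
  rcases mul_eq_zero.1 hq with h | h
  · exact absurd (h ▸ i.P.zero_mem) ha
  · rw [h]; exact Ideal.zero_mem _

/-- **LOCFACT in prime-ideal language.**  `B` a noetherian integrally closed domain (the local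
ring of the model at a closed point of the special fibre, any thickness), `σ, σ' ≡ id mod w`
(inertia).  Let `f ≠ 0` with `m ∣ ord_P f` at every horizontal prime `P`, and suppose every
horizontal prime in the support of `f` has a local generator (`d ∈ P`, `a • P ≤ (d)`,
`a ∣ w ^ n`: LP, `A2/H673/NodeThick.lean`).  Then
`(τ' - 1)(τ - 1) f = (1 + w c) · h ^ m` with `c ∈ B` and `h ∈ 1 + 𝔪_W` for every Gauss
valuation `W`. -/
theorem locfact_of_LP [IsNoetherianRing B] [IsIntegrallyClosed B]
    (w : B) (hw0 : w ≠ 0) (τ τ' : F ≃+* F) (σ σ' : B →+* B)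
    (hστ : ∀ b, algebraMap B F (σ b) = τ (algebraMap B F b))
    (hσ : ∀ b, w ∣ σ b - b) (hw : σ w ∣ w)
    (hστ' : ∀ b, algebraMap B F (σ' b) = τ' (algebraMap B F b))
    (hσ' : ∀ b, w ∣ σ' b - b)
    {m : ℕ} {f : F} (hf : f ≠ 0)
    (hdiv : ∀ i : HorPrime B w, ¬ IsUnitOf (horVal F i) f →
      ∃ h u : F, h ≠ 0 ∧ IsUnitOf (horVal F i) u ∧ f = u * h ^ m)
    (hLP : ∀ i : HorPrime B w, ¬ IsUnitOf (horVal F i) f →
      ∃ (d a : B) (n : ℕ), d ∈ i.P ∧ a ∣ w ^ n ∧ ∀ p ∈ i.P, d ∣ a * p)
    (Kc : Subfield F) (𝒲 : Set (ValuationSubring F))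
    (hW : ∀ W ∈ 𝒲, HasConstValues Kc W ∧ InInertia W τ ∧ PreservesConstValues Kc W τ ∧
      InInertia W τ') :
    ∃ (h : F) (c : B), h ≠ 0 ∧
      tauSubOne τ' (tauSubOne τ f) = algebraMap B F (1 + w * c) * h ^ m ∧
      ∀ W ∈ 𝒲, OneAddNonunits W h := by
  classical
  have hinj : Function.Injective (algebraMap B F) := IsFractionRing.injective B F
  have hfin := finite_support F w hf
  -- choose the local generators
  have hch : ∀ i : HorPrime B w, ∃ d : B, ¬ IsUnitOf (horVal F i) f →
      ∃ (a : B) (n : ℕ), d ∈ i.P ∧ a ∣ w ^ n ∧ ∀ p ∈ i.P, d ∣ a * p := by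
    intro i
    by_cases hi : IsUnitOf (horVal F i) f
    · exact ⟨0, fun h => absurd hi h⟩
    · obtain ⟨d, a, n, h1, h2, h3⟩ := hLP i hi
      exact ⟨d, fun _ => ⟨a, n, h1, h2, h3⟩⟩
  choose d hd using hch
  have hS : ∀ i, i ∈ hfin.toFinset ↔ ¬ IsUnitOf (horVal F i) f := fun i => by
    rw [Set.Finite.mem_toFinset]
    rfl
  refine locfact_gauss w hw0 τ τ' σ σ' hστ hσ hw hστ' hσ' (horVal F)
    (fun x hx h => exists_pow_mul_mem_of_horVal F w hx h) hf hfin.toFinset
    (fun i => algebraMap B F (d i)) ?_ ?_ ?_ ?_ ?_ Kc 𝒲 hW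
  · intro i hi
    obtain ⟨a, n, h1, h2, h3⟩ := hd i ((hS i).1 hi)
    have := ne_zero_of_LP i (not_mem_of_dvd_pow i h2) h3
    exact fun h => this (hinj (by rw [h, map_zero]))
  · intro i hi g hg
    obtain ⟨a, n, h1, h2, h3⟩ := hd i ((hS i).1 hi)
    exact exists_zpow_unit_of_LP F i h1 (not_mem_of_dvd_pow i h2) h3 hg
  · intro i hi j hji
    obtain ⟨a, n, h1, h2, h3⟩ := hd i ((hS i).1 hi)
    exact isUnitOf_horVal_of_LP F i j hji (not_mem_of_dvd_pow j h2) h3
  · intro j hj
    by_contra hcon
    exact hj ((hS j).2 hcon)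
  · intro i hi
    exact hdiv i ((hS i).1 hi)

end Hor

end Fermat.Agent.A2.H129
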