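import Mathlib
import Fermat.Agent.A2.H129.LocFactC

/-!
# A2 / LOCFACT, part D: from the local ring to the chart

`C` a chart of the model (a domain with fraction field `F`), `𝔪` a prime of `C` containing `w`
(a closed point of the special fibre), `O = C_𝔪` its local ring (noetherian, integrally closed),
`σ, σ' : C →+* C` congruent to the identity modulo `w` (inertia) and compatible with
`τ, τ' : F ≃+* F`.

* `sigmaLoc` : the endomorphism of `O` induced by `σ`; `sigmaLoc_compat`, `sigmaLoc_congr`,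
  `sigmaLoc_dvd`.
* `locfact_chart` : **LOCFACT in the form consumed by ALG_ss**
  (`A2/H348/Glue.lean: ChartData.loc`): there are `h ∈ F`, `s ∉ 𝔪`, `a ∈ C` with
      `(τ' - 1)(τ - 1) f · s = h ^ m · (s + w a)`
  and `h ∈ 1 + 𝔪_W` for every Gauss valuation `W`.
-/

set_option autoImplicit false
set_option linter.unusedSectionVars false
set_option linter.style.haveILetI false

namespace Fermat.Agent.A2.H129

section Chart

variable {C O F : Type*} [CommRing C] [IsDomain C] [CommRing O] [IsDomain O] [Field F]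
  [Algebra C O] [Algebra C F] [Algebra O F] [IsScalarTower C O F]
  (𝔪 : Ideal C) [h𝔪 : 𝔪.IsPrime] [hloc : IsLocalization.AtPrime O 𝔪]

/-- the endomorphism of the local ring `O = C_𝔪` induced by `σ ≡ id mod w`, `w ∈ 𝔪`. -/
noncomputable def sigmaLoc (O : Type*) [CommRing O] [Algebra C O] (𝔪 : Ideal C) [𝔪.IsPrime]
    [IsLocalization.AtPrime O 𝔪] {w : C} (hw𝔪 : w ∈ 𝔪) (σ : C →+* C)
    (hσ : ∀ b, w ∣ σ b - b) : O →+* O :=
  IsLocalization.map (M := 𝔪.primeCompl) (T := 𝔪.primeCompl) O σ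
    (fun _ hb => map_not_mem_of_congr σ hσ 𝔪 hw𝔪 hb)

theorem sigmaLoc_mk' {w : C} (hw𝔪 : w ∈ 𝔪) (σ : C →+* C) (hσ : ∀ b, w ∣ σ b - b) (c : C)
    (s : 𝔪.primeCompl) :
    sigmaLoc O 𝔪 hw𝔪 σ hσ (IsLocalization.mk' O c s) =
      IsLocalization.mk' O (σ c)
        (⟨σ s, map_not_mem_of_congr σ hσ 𝔪 hw𝔪 s.2⟩ : 𝔪.primeCompl) :=
  IsLocalization.map_mk' _ _ _

theorem sigmaLoc_algebraMap {w : C} (hw𝔪 : w ∈ 𝔪) (σ : C →+* C) (hσ : ∀ b, w ∣ σ b - b)
    (c : C) :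
    sigmaLoc O 𝔪 hw𝔪 σ hσ (algebraMap C O c) = algebraMap C O (σ c) :=
  IsLocalization.map_eq _ _

/-- the image in `F` of a fraction. -/
theorem algebraMap_mk'_eq_div (c : C) (s : 𝔪.primeCompl) :
    algebraMap O F (IsLocalization.mk' O c s) * algebraMap C F (s : C) = algebraMap C F c := by
  rw [IsScalarTower.algebraMap_apply C O F (s : C), IsScalarTower.algebraMap_apply C O F c,
    ← map_mul, IsLocalization.mk'_spec]

variable [IsFractionRing O F]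

omit h𝔪 in
theorem injective_algebraMap_of_tower (O : Type*) [CommRing O] [IsDomain O] [Algebra C O]
    [Algebra O F] [IsScalarTower C O F] [IsFractionRing O F] (𝔪 : Ideal C) [𝔪.IsPrime]
    [IsLocalization.AtPrime O 𝔪] : Function.Injective (algebraMap C F) := by
  have hinjO : Function.Injective (algebraMap O F) := IsFractionRing.injective O F
  have hinjC : Function.Injective (algebraMap C O) :=
    IsLocalization.injective O (M := 𝔪.primeCompl) 𝔪.primeCompl_le_nonZeroDivisors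
  rw [IsScalarTower.algebraMap_eq C O F]
  exact hinjO.comp hinjC

theorem sigmaLoc_compat {w : C} (hw𝔪 : w ∈ 𝔪) (τ : F ≃+* F) (σ : C →+* C)
    (hστ : ∀ b, algebraMap C F (σ b) = τ (algebraMap C F b)) (hσ : ∀ b, w ∣ σ b - b) (y : O) :
    algebraMap O F (sigmaLoc O 𝔪 hw𝔪 σ hσ y) = τ (algebraMap O F y) := by
  obtain ⟨c, s, rfl⟩ := IsLocalization.exists_mk'_eq 𝔪.primeCompl y
  rw [sigmaLoc_mk']
  have h1 := algebraMap_mk'_eq_div (O := O) (F := F) 𝔪 (σ c)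
    (⟨σ s, map_not_mem_of_congr σ hσ 𝔪 hw𝔪 s.2⟩ : 𝔪.primeCompl)
  have h2 := algebraMap_mk'_eq_div (O := O) (F := F) 𝔪 c s
  have h3 : τ (algebraMap O F (IsLocalization.mk' O c s)) * τ (algebraMap C F (s : C)) =
      τ (algebraMap C F c) := by rw [← map_mul, h2]
  rw [← hστ, ← hστ] at h3
  have hne : algebraMap C F (σ (s : C)) ≠ 0 := by
    intro h0
    apply map_not_mem_of_congr σ hσ 𝔪 hw𝔪 s.2
    have : σ (s : C) = 0 := injective_algebraMap_of_tower O 𝔪 (by rw [h0, map_zero])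
    rw [this]
    exact 𝔪.zero_mem
  simp only at h1
  exact mul_right_cancel₀ hne (h1.trans h3.symm)

theorem sigmaLoc_congr {w : C} (hw𝔪 : w ∈ 𝔪) (σ : C →+* C) (hσ : ∀ b, w ∣ σ b - b) (y : O) :
    algebraMap C O w ∣ sigmaLoc O 𝔪 hw𝔪 σ hσ y - y := by
  obtain ⟨c, s, rfl⟩ := IsLocalization.exists_mk'_eq 𝔪.primeCompl y
  rw [sigmaLoc_mk']
  obtain ⟨c₁, hc₁⟩ := hσ c
  obtain ⟨c₂, hc₂⟩ := hσ (s : C)
  set s' : 𝔪.primeCompl := ⟨σ s, map_not_mem_of_congr σ hσ 𝔪 hw𝔪 s.2⟩ with hs'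
  refine ⟨IsLocalization.mk' O (c₁ * s - c * c₂) (s' * s), ?_⟩
  have hu : IsUnit (algebraMap C O ((s' * s : 𝔪.primeCompl) : C)) :=
    IsLocalization.map_units O (s' * s)
  apply hu.mul_right_cancel
  rw [mul_assoc, IsLocalization.mk'_spec, sub_mul, Submonoid.coe_mul, map_mul]
  have e1 : IsLocalization.mk' O (σ c) s' * (algebraMap C O (s' : C) * algebraMap C O (s : C)) =
      algebraMap C O (σ c) * algebraMap C O (s : C) := by
    rw [← mul_assoc, IsLocalization.mk'_spec]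
  have e2 : IsLocalization.mk' O c s * (algebraMap C O (s' : C) * algebraMap C O (s : C)) =
      algebraMap C O c * algebraMap C O (s' : C) := by
    rw [mul_comm (algebraMap C O (s' : C)), ← mul_assoc, IsLocalization.mk'_spec]
  rw [e1, e2, ← map_mul, ← map_mul, ← map_mul, ← map_sub]
  congr 1
  have hs'c : ((s' : 𝔪.primeCompl) : C) = σ (s : C) := rfl
  rw [hs'c]
  linear_combination (s : C) * hc₁ - c * hc₂

theorem sigmaLoc_dvd {w : C} (hw𝔪 : w ∈ 𝔪) (σ : C →+* C) (hσ : ∀ b, w ∣ σ b - b)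
    (hw : σ w ∣ w) :
    sigmaLoc O 𝔪 hw𝔪 σ hσ (algebraMap C O w) ∣ algebraMap C O w := by
  rw [sigmaLoc_algebraMap]
  exact map_dvd (algebraMap C O) hw

variable [IsNoetherianRing O] [IsIntegrallyClosed O]

/-- **LOCFACT, chart form** (the local input `ChartData.loc` of ALG_ss). -/
theorem locfact_chart (w : C) (hw0 : w ≠ 0) (hw𝔪 : w ∈ 𝔪) (τ τ' : F ≃+* F) (σ σ' : C →+* C)
    (hστ : ∀ b, algebraMap C F (σ b) = τ (algebraMap C F b))
    (hσ : ∀ b, w ∣ σ b - b) (hw : σ w ∣ w)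
    (hστ' : ∀ b, algebraMap C F (σ' b) = τ' (algebraMap C F b))
    (hσ' : ∀ b, w ∣ σ' b - b)
    {m : ℕ} {f : F} (hf : f ≠ 0)
    (hdiv : ∀ i : HorPrime O (algebraMap C O w), ¬ IsUnitOf (horVal F i) f →
      ∃ h u : F, h ≠ 0 ∧ IsUnitOf (horVal F i) u ∧ f = u * h ^ m)
    (hLP : ∀ i : HorPrime O (algebraMap C O w), ¬ IsUnitOf (horVal F i) f →
      ∃ (d a : O) (n : ℕ), d ∈ i.P ∧ a ∣ algebraMap C O w ^ n ∧ ∀ p ∈ i.P, d ∣ a * p)
    (Kc : Subfield F) (𝒲 : Set (ValuationSubring F))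
    (hW : ∀ W ∈ 𝒲, HasConstValues Kc W ∧ InInertia W τ ∧ PreservesConstValues Kc W τ ∧
      InInertia W τ') :
    ∃ (h : F) (s a : C), h ≠ 0 ∧ s ∉ 𝔪 ∧
      tauSubOne τ' (tauSubOne τ f) * algebraMap C F s =
        h ^ m * (algebraMap C F s + algebraMap C F w * algebraMap C F a) ∧
      ∀ W ∈ 𝒲, OneAddNonunits W h := by
  have hinjC : Function.Injective (algebraMap C O) :=
    IsLocalization.injective O (M := 𝔪.primeCompl) 𝔪.primeCompl_le_nonZeroDivisors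
  have hwO : algebraMap C O w ≠ 0 := fun h => hw0 (hinjC (by rw [h, map_zero]))
  obtain ⟨h, c, hh, hc, hWh⟩ := locfact_of_LP F (algebraMap C O w) hwO τ τ'
    (sigmaLoc O 𝔪 hw𝔪 σ hσ) (sigmaLoc O 𝔪 hw𝔪 σ' hσ')
    (sigmaLoc_compat 𝔪 hw𝔪 τ σ hστ hσ) (sigmaLoc_congr 𝔪 hw𝔪 σ hσ)
    (sigmaLoc_dvd 𝔪 hw𝔪 σ hσ hw)
    (sigmaLoc_compat 𝔪 hw𝔪 τ' σ' hστ' hσ') (sigmaLoc_congr 𝔪 hw𝔪 σ' hσ')
    hf hdiv hLP Kc 𝒲 hW
  obtain ⟨a, s, rfl⟩ := IsLocalization.exists_mk'_eq 𝔪.primeCompl c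
  refine ⟨h, s, a, hh, s.2, ?_, hWh⟩
  have h2 := algebraMap_mk'_eq_div (O := O) (F := F) 𝔪 a s
  rw [hc, map_add, map_one, map_mul, ← IsScalarTower.algebraMap_apply C O F]
  linear_combination (h ^ m * algebraMap C F w) * h2

end Chart

end Fermat.Agent.A2.H129
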