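import Mathlib

/-!
# A2 / LOC: points of a residue class are separated by ONE coordinate

Mathlib-only commutative algebra.  `𝒪` is the local ring of the model at a closed point of the
special fibre (no noetherian / completeness hypothesis is used), `A` a valuation ring of rank one
(elementwise: `hrank`), `P Q : 𝒪 →+* A` two points centred at that closed point.

* regular point, `𝔪 = (t, ϖ)`:  `P t = Q t → P = Q`            (`eq_of_eq_at_regular`)
* node, `𝔪 = (x, y, ϖ)`, `x y = ϖ h`, `h` a unit:  `P x = Q x → P = Q`   (`eq_of_eq_at_node`)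

"`𝔪 = (…)`" is used in the elementwise form: every `z : 𝒪` is `c + α t + γ ϖ`
(resp. `c + α x + β y + γ ϖ`) with `c` a constant (an element on which `P` and `Q` agree).

The node statement is FALSE without `h` being a unit (thickness `> 1` in bad coordinates), and
it is exactly the semistability input of wall A2: on a cuspidal fibre no such coordinate exists.
-/

set_option autoImplicit false
set_option linter.unusedSectionVars false

namespace Fermat.Agent.A2.H129

variable {𝒪 A : Type*} [CommRing 𝒪] [CommRing A] [IsDomain A] [ValuationRing A]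

/-- rank one, elementwise: every nonzero element divides a power of every non-unit. -/
def RankOne (A : Type*) [CommRing A] : Prop :=
  ∀ ε z : A, ¬ IsUnit ε → z ≠ 0 → ∃ n : ℕ, z ∣ ε ^ n

/-- **Core contraction lemma.**  If every difference `d z` lies in `j A + ε · (ideal generated by
all differences)` with `ε` a non-unit, then every difference is divisible by `j`. -/
theorem dvd_of_contraction (hA : RankOne A) {ε j : A} (hε : ¬ IsUnit ε) (d : 𝒪 → A)
    (h : ∀ z, ∃ u : A, ∃ w ∈ Ideal.span (Set.range d), d z = j * u + ε * w) :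
    ∀ z, j ∣ d z := by
  -- step 1: `d z ∈ (j) + (ε ^ n)` for all `n`
  have key : ∀ n : ℕ, ∀ z, d z ∈ Ideal.span {j} ⊔ Ideal.span {ε ^ n} := by
    intro n
    induction n with
    | zero =>
      intro z
      rw [pow_zero, Ideal.span_singleton_one, sup_top_eq]
      trivial
    | succ n ih =>
      intro z
      obtain ⟨u, w, hw, hz⟩ := h z
      have hw' : w ∈ Ideal.span {j} ⊔ Ideal.span {ε ^ n} := by
        have hle : Ideal.span (Set.range d) ≤ Ideal.span {j} ⊔ Ideal.span {ε ^ n} := by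
          rw [Ideal.span_le]
          rintro _ ⟨z', rfl⟩
          exact ih z'
        exact hle hw
      rw [hz]
      refine Ideal.add_mem _ ?_ ?_
      · exact Ideal.mem_sup_left (Ideal.mem_span_singleton.2 (Dvd.intro u rfl))
      · obtain ⟨p, hp, q, hq, rfl⟩ := Submodule.mem_sup.1 hw'
        rw [mul_add]
        refine Ideal.add_mem _ ?_ ?_
        · exact Ideal.mem_sup_left (Ideal.mul_mem_left _ _ hp)
        · refine Ideal.mem_sup_right ?_
          obtain ⟨c, rfl⟩ := Ideal.mem_span_singleton.1 hq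
          exact Ideal.mem_span_singleton.2 ⟨c, by ring⟩
  intro z
  by_cases hε0 : ε = 0
  · obtain ⟨u, w, -, hz⟩ := h z
    rw [hz, hε0, zero_mul, add_zero]
    exact Dvd.intro u rfl
  by_cases hj : j = 0
  · -- then `d z` is divisible by all powers of `ε`, hence zero
    subst hj
    suffices hz0 : d z = 0 by rw [hz0]
    by_contra hz0
    obtain ⟨n, hn⟩ := hA ε (d z) hε hz0
    have h1 := key (n + 1) z
    rw [Ideal.span_singleton_zero, bot_sup_eq, Ideal.mem_span_singleton] at h1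
    have h2 : ε ^ (n + 1) ∣ ε ^ n := h1.trans hn
    obtain ⟨c, hc⟩ := h2
    have hpow : ε ^ n ≠ 0 := pow_ne_zero n hε0
    have : ε ^ n * 1 = ε ^ n * (ε * c) :=
      calc ε ^ n * 1 = ε ^ n := mul_one _
        _ = ε ^ (n + 1) * c := hc
        _ = ε ^ n * (ε * c) := by ring
    have h3 : (1 : A) = ε * c := mul_left_cancel₀ hpow this
    exact hε (IsUnit.of_mul_eq_one c h3.symm)
  · obtain ⟨n, hn⟩ := hA ε j hε hj
    have h1 := key n z
    obtain ⟨p, hp, q, hq, hpq⟩ := Submodule.mem_sup.1 h1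
    rw [← hpq]
    refine dvd_add (Ideal.mem_span_singleton.1 hp) ?_
    exact hn.trans (Ideal.mem_span_singleton.1 hq)

/-- In a valuation ring, among three elements one divides the other two. -/
theorem exists_dvd_three (a b c : A) :
    ∃ ε : A, (ε = a ∨ ε = b ∨ ε = c) ∧ ε ∣ a ∧ ε ∣ b ∧ ε ∣ c := by
  rcases ValuationRing.dvd_total a b with hab | hba
  · rcases ValuationRing.dvd_total a c with hac | hca
    · exact ⟨a, Or.inl rfl, dvd_rfl, hab, hac⟩
    · exact ⟨c, Or.inr (Or.inr rfl), hca, hca.trans hab, dvd_rfl⟩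
  · rcases ValuationRing.dvd_total b c with hbc | hcb
    · exact ⟨b, Or.inr (Or.inl rfl), hba, dvd_rfl, hbc⟩
    · exact ⟨c, Or.inr (Or.inr rfl), hcb.trans hba, hcb, dvd_rfl⟩

section points

variable (P Q : 𝒪 →+* A)

/-- the difference of two points -/
def ptDiff (z : 𝒪) : A := P z - Q z

theorem ptDiff_mul (z w : 𝒪) :
    ptDiff P Q (z * w) = ptDiff P Q z * P w + Q z * ptDiff P Q w := by
  unfold ptDiff
  rw [map_mul, map_mul]
  ring

theorem ptDiff_add (z w : 𝒪) : ptDiff P Q (z + w) = ptDiff P Q z + ptDiff P Q w := by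
  unfold ptDiff
  rw [map_add, map_add]
  ring

theorem ptDiff_mem (z : 𝒪) : ptDiff P Q z ∈ Ideal.span (Set.range (ptDiff P Q)) :=
  Ideal.subset_span ⟨z, rfl⟩

/-- **LOC at a node.**  `𝔪 = (x, y, ϖ)`, `x y = ϖ h` with `h` a unit, `P`, `Q` centred at `𝔪`
(`P x`, `P y`, `P ϖ` non-units), agreeing on constants and on `x`.  Then `P = Q`. -/
theorem eq_of_eq_at_node (hA : RankOne A) {x y ϖ h : 𝒪} (hxy : x * y = ϖ * h) (hh : IsUnit h)
    (hgen : ∀ z : 𝒪, ∃ c α β γ : 𝒪, P c = Q c ∧ z = c + α * x + β * y + γ * ϖ)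
    (hPx : ¬ IsUnit (P x)) (hPy : ¬ IsUnit (P y)) (hPϖ : ¬ IsUnit (P ϖ))
    (hϖ : P ϖ = Q ϖ) (hϖ0 : P ϖ ≠ 0) (hx : P x = Q x) : P = Q := by
  set d := ptDiff P Q with hd
  have dx : d x = 0 := by simp [hd, ptDiff, hx]
  have dϖ : d ϖ = 0 := by simp [hd, ptDiff, hϖ]
  -- the contraction element
  obtain ⟨ε, hεcase, hεa, hεb, hεc⟩ := exists_dvd_three (P x) (P y) (P ϖ)
  have hε : ¬ IsUnit ε := by
    rcases hεcase with rfl | rfl | rfl
    · exact hPx
    · exact hPy
    · exact hPϖ
  obtain ⟨ea, hea⟩ := hεa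
  obtain ⟨eb, heb⟩ := hεb
  obtain ⟨ec, hec⟩ := hεc
  -- step 1: every difference is divisible by `j := d y`
  have hstep : ∀ z, ∃ u : A, ∃ w ∈ Ideal.span (Set.range d), d z = d y * u + ε * w := by
    intro z
    obtain ⟨c, α, β, γ, hc, rfl⟩ := hgen z
    have dc : d c = 0 := by simp [hd, ptDiff, hc]
    refine ⟨Q β, ea * d α + eb * d β + ec * d γ, ?_, ?_⟩
    · refine Ideal.add_mem _ (Ideal.add_mem _ ?_ ?_) ?_
      · exact Ideal.mul_mem_left _ _ (ptDiff_mem P Q α)
      · exact Ideal.mul_mem_left _ _ (ptDiff_mem P Q β)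
      · exact Ideal.mul_mem_left _ _ (ptDiff_mem P Q γ)
    · rw [hd, ptDiff_add, ptDiff_add, ptDiff_add, ptDiff_mul, ptDiff_mul, ptDiff_mul, ← hd, dc, dx,
        dϖ, hea, heb, hec]
      ring
  have hdiv := dvd_of_contraction hA hε d hstep
  -- step 2: `d y = 0`
  have hPh : IsUnit (P h) := hh.map P
  have e1 : P x * P y = P ϖ * P h := by rw [← map_mul, hxy, map_mul]
  have e2 : Q x * Q y = Q ϖ * Q h := by rw [← map_mul, hxy, map_mul]
  obtain ⟨c, hc⟩ := hdiv h
  have hdy : d y = 0 := by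
    by_contra hne
    have e3 : P x * d y = P ϖ * (d y * c) := by
      have : P x * d y = P ϖ * d h := by
        simp only [hd, ptDiff]
        rw [mul_sub, mul_sub, e1]
        rw [hx, hϖ, e2]
      rw [this, hc]
    have e4 : d y * P x = d y * (P ϖ * c) := by rw [mul_comm, e3]; ring
    have e5 : P x = P ϖ * c := mul_left_cancel₀ hne e4
    have e6 : P ϖ * (c * P y) = P ϖ * P h := by rw [← e1, e5]; ring
    have e7 : c * P y = P h := mul_left_cancel₀ hϖ0 e6
    exact hPy (isUnit_of_mul_isUnit_right (by rw [e7]; exact hPh))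
  -- conclusion
  ext z
  obtain ⟨c', hc'⟩ := hdiv z
  rw [hdy, zero_mul] at hc'
  exact sub_eq_zero.1 hc'

/-- **LOC at a regular point.**  `𝔪 = (t, ϖ)`, `P`, `Q` centred at `𝔪`, agreeing on constants and
on `t`.  Then `P = Q`. -/
theorem eq_of_eq_at_regular (hA : RankOne A) {t ϖ : 𝒪}
    (hgen : ∀ z : 𝒪, ∃ c α γ : 𝒪, P c = Q c ∧ z = c + α * t + γ * ϖ)
    (hPt : ¬ IsUnit (P t)) (hPϖ : ¬ IsUnit (P ϖ))
    (hϖ : P ϖ = Q ϖ) (ht : P t = Q t) : P = Q := by
  set d := ptDiff P Q with hd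
  have dt : d t = 0 := by simp [hd, ptDiff, ht]
  have dϖ : d ϖ = 0 := by simp [hd, ptDiff, hϖ]
  obtain ⟨ε, hεcase, hεa, -, hεc⟩ := exists_dvd_three (P t) (P t) (P ϖ)
  have hε : ¬ IsUnit ε := by
    rcases hεcase with rfl | rfl | rfl
    · exact hPt
    · exact hPt
    · exact hPϖ
  obtain ⟨ea, hea⟩ := hεa
  obtain ⟨ec, hec⟩ := hεc
  have hstep : ∀ z, ∃ u : A, ∃ w ∈ Ideal.span (Set.range d), d z = 0 * u + ε * w := by
    intro z
    obtain ⟨c, α, γ, hc, rfl⟩ := hgen z
    have dc : d c = 0 := by simp [hd, ptDiff, hc]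
    refine ⟨0, ea * d α + ec * d γ, ?_, ?_⟩
    · refine Ideal.add_mem _ ?_ ?_
      · exact Ideal.mul_mem_left _ _ (ptDiff_mem P Q α)
      · exact Ideal.mul_mem_left _ _ (ptDiff_mem P Q γ)
    · rw [hd, ptDiff_add, ptDiff_add, ptDiff_mul, ptDiff_mul, ← hd, dc, dt, dϖ, hea, hec]
      ring
  have hdiv := dvd_of_contraction hA hε d hstep
  ext z
  obtain ⟨c', hc'⟩ := hdiv z
  rw [zero_mul] at hc'
  exact sub_eq_zero.1 hc'

end points

end Fermat.Agent.A2.H129
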