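import Mathlib

/-!
# A2 / LOC (second half): the coordinate has a SIMPLE zero at each point of the residue class

Mathlib-only.  `𝒪'` = local ring of the (base-changed) model at a closed point of the special
fibre (noetherian local `A'`-algebra), `A'` a valuation ring, `P : 𝒪' →ₐ[A'] A'` a section
(a point of the generic fibre centred at the closed point), `a = P x`, `b = P y`.

* regular point, `𝔪 = (t, ϖ)`:  `ker P = (t - a)`                      (`ker_le_span_of_regular`)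
* node, `𝔪 = (x, y, ϖ)`, `x y = ϖ h`, `h` a unit (thickness one, ANY such coordinates):
    `ker P = (x - a, y - b)`                                            (`ker_le_span_of_node`)
    `a • ker P ⊆ (x - a)`                                               (`smul_ker_le_span_of_node`)
  so `x - a` generates `ker P` after inverting the constant `a ≠ 0`: it is a uniformiser at `P`
  on the generic fibre, and `x - a` has no other zero centred at the node
  (`eq_of_eq_at_node` in `LocPoint.lean`).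
-/

set_option autoImplicit false
set_option linter.unusedSectionVars false

namespace Fermat.Agent.A2.H129

variable {A' 𝒪' : Type*} [CommRing A'] [IsDomain A'] [ValuationRing A']
  [CommRing 𝒪'] [IsLocalRing 𝒪'] [IsNoetherianRing 𝒪'] [Algebra A' 𝒪']

/-- constants which are non-units of `A'` lie in the Jacobson radical of `𝒪'`. -/
theorem span_algebraMap_le_jacobson (P : 𝒪' →ₐ[A'] A') {ε : A'} (hε : ¬ IsUnit ε) :
    Ideal.span {algebraMap A' 𝒪' ε} ≤ Ideal.jacobson (⊥ : Ideal 𝒪') := by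
  rw [IsLocalRing.jacobson_eq_maximalIdeal (⊥ : Ideal 𝒪') bot_ne_top, Ideal.span_le]
  rintro _ rfl
  rw [SetLike.mem_coe, IsLocalRing.mem_maximalIdeal, mem_nonunits_iff]
  intro hu
  apply hε
  have := hu.map P
  rwa [AlgHom.commutes] at this

theorem sub_algebraMap_mem_ker (P : 𝒪' →ₐ[A'] A') (z : 𝒪') :
    z - algebraMap A' 𝒪' (P z) ∈ RingHom.ker (P : 𝒪' →+* A') := by
  rw [RingHom.mem_ker]
  simp

/-- three elements of a valuation ring have a common divisor among them -/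
theorem exists_dvd_three' (a b c : A') :
    ∃ ε : A', (ε = a ∨ ε = b ∨ ε = c) ∧ ε ∣ a ∧ ε ∣ b ∧ ε ∣ c := by
  rcases ValuationRing.dvd_total a b with hab | hba
  · rcases ValuationRing.dvd_total a c with hac | hca
    · exact ⟨a, Or.inl rfl, dvd_rfl, hab, hac⟩
    · exact ⟨c, Or.inr (Or.inr rfl), hca, hca.trans hab, dvd_rfl⟩
  · rcases ValuationRing.dvd_total b c with hbc | hcb
    · exact ⟨b, Or.inr (Or.inl rfl), hba, dvd_rfl, hbc⟩
    · exact ⟨c, Or.inr (Or.inr rfl), hcb.trans hba, hcb, dvd_rfl⟩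

/-- **Node: `ker P = (x - a, y - b)`.** -/
theorem ker_le_span_of_node (P : 𝒪' →ₐ[A'] A') {x y : 𝒪'} {ϖ₀ : A'}
    (hgen : ∀ z : 𝒪', ∃ (c : A') (α β γ : 𝒪'),
      z = algebraMap A' 𝒪' c + α * x + β * y + γ * algebraMap A' 𝒪' ϖ₀)
    (hPx : ¬ IsUnit (P x)) (hPy : ¬ IsUnit (P y)) (hϖ : ¬ IsUnit ϖ₀) :
    RingHom.ker (P : 𝒪' →+* A') ≤
      Ideal.span {x - algebraMap A' 𝒪' (P x), y - algebraMap A' 𝒪' (P y)} := by
  obtain ⟨ε, hεcase, ⟨ea, hea⟩, ⟨eb, heb⟩, ⟨ec, hec⟩⟩ := exists_dvd_three' (P x) (P y) ϖ₀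
  have hε : ¬ IsUnit ε := by
    rcases hεcase with rfl | rfl | rfl
    · exact hPx
    · exact hPy
    · exact hϖ
  set a' := algebraMap A' 𝒪' (P x) with ha'
  set b' := algebraMap A' 𝒪' (P y) with hb'
  set 𝔭 : Ideal 𝒪' := RingHom.ker (P : 𝒪' →+* A') with h𝔭
  set I : Ideal 𝒪' := Ideal.span {x - a', y - b'} with hI
  refine Submodule.le_of_le_smul_of_le_jacobson_bot (I := Ideal.span {algebraMap A' 𝒪' ε})
    (IsNoetherian.noetherian 𝔭) (span_algebraMap_le_jacobson P hε) ?_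
  intro z hz
  obtain ⟨c, α, β, γ, rfl⟩ := hgen z
  have hPz : c + P α * P x + P β * P y + P γ * ϖ₀ = 0 := by
    have := (RingHom.mem_ker).1 hz
    simpa using this
  set α' := α - algebraMap A' 𝒪' (P α) with hα'
  set β' := β - algebraMap A' 𝒪' (P β) with hβ'
  set γ' := γ - algebraMap A' 𝒪' (P γ) with hγ'
  have hα'mem : α' ∈ 𝔭 := sub_algebraMap_mem_ker P α
  have hβ'mem : β' ∈ 𝔭 := sub_algebraMap_mem_ker P β
  have hγ'mem : γ' ∈ 𝔭 := sub_algebraMap_mem_ker P γ
  have key : algebraMap A' 𝒪' c + α * x + β * y + γ * algebraMap A' 𝒪' ϖ₀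
      = (α * (x - a') + β * (y - b'))
        + algebraMap A' 𝒪' ε * (algebraMap A' 𝒪' ea * α' + algebraMap A' 𝒪' eb * β'
            + algebraMap A' 𝒪' ec * γ') := by
    have h0 : algebraMap A' 𝒪' (c + P α * P x + P β * P y + P γ * ϖ₀) = 0 := by
      rw [hPz, map_zero]
    simp only [map_add, map_mul] at h0
    have e1 : a' = algebraMap A' 𝒪' ε * algebraMap A' 𝒪' ea := by
      rw [ha', hea, map_mul]
    have e2 : b' = algebraMap A' 𝒪' ε * algebraMap A' 𝒪' eb := by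
      rw [hb', heb, map_mul]
    have e3 : algebraMap A' 𝒪' ϖ₀ = algebraMap A' 𝒪' ε * algebraMap A' 𝒪' ec := by
      rw [hec, map_mul]
    rw [← ha', ← hb'] at h0
    rw [hα', hβ', hγ']
    linear_combination h0 + (α - algebraMap A' 𝒪' (P α)) * e1
      + (β - algebraMap A' 𝒪' (P β)) * e2 + (γ - algebraMap A' 𝒪' (P γ)) * e3
  rw [key]
  refine Submodule.add_mem_sup ?_ ?_
  · refine Ideal.add_mem _ (Ideal.mul_mem_left _ _ (Ideal.subset_span (by simp)))
      (Ideal.mul_mem_left _ _ (Ideal.subset_span (by simp)))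
  · rw [smul_eq_mul]
    refine Ideal.mul_mem_mul (Ideal.subset_span rfl) ?_
    exact Ideal.add_mem _ (Ideal.add_mem _ (Ideal.mul_mem_left _ _ hα'mem)
      (Ideal.mul_mem_left _ _ hβ'mem)) (Ideal.mul_mem_left _ _ hγ'mem)

/-- **Regular point: `ker P = (t - a)`.** -/
theorem ker_le_span_of_regular (P : 𝒪' →ₐ[A'] A') {t : 𝒪'} {ϖ₀ : A'}
    (hgen : ∀ z : 𝒪', ∃ (c : A') (α γ : 𝒪'),
      z = algebraMap A' 𝒪' c + α * t + γ * algebraMap A' 𝒪' ϖ₀)
    (hPt : ¬ IsUnit (P t)) (hϖ : ¬ IsUnit ϖ₀) :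
    RingHom.ker (P : 𝒪' →+* A') ≤ Ideal.span {t - algebraMap A' 𝒪' (P t)} := by
  have h := ker_le_span_of_node P (x := t) (y := t) (ϖ₀ := ϖ₀)
    (fun z => by
      obtain ⟨c, α, γ, hz⟩ := hgen z
      exact ⟨c, α, 0, γ, by rw [hz]; ring⟩) hPt hPt hϖ
  refine h.trans ?_
  rw [Ideal.span_le]
  intro w hw
  simp only [Set.mem_insert_iff, Set.mem_singleton_iff, or_self] at hw
  rw [hw]
  exact Ideal.subset_span rfl

/-- **Node, thickness one: `x - a` generates `ker P` after inverting the constant `a`.** -/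
theorem smul_ker_le_span_of_node (P : 𝒪' →ₐ[A'] A') {x y h : 𝒪'} {ϖ₀ : A'}
    (hxy : x * y = algebraMap A' 𝒪' ϖ₀ * h) (hh : IsUnit h)
    (hgen : ∀ z : 𝒪', ∃ (c : A') (α β γ : 𝒪'),
      z = algebraMap A' 𝒪' c + α * x + β * y + γ * algebraMap A' 𝒪' ϖ₀)
    (hPx : ¬ IsUnit (P x)) (hPy : ¬ IsUnit (P y)) (hϖ : ¬ IsUnit ϖ₀) :
    ∀ z ∈ RingHom.ker (P : 𝒪' →+* A'),
      algebraMap A' 𝒪' (P x) * z ∈ Ideal.span {x - algebraMap A' 𝒪' (P x)} := by
  have hker := ker_le_span_of_node P hgen hPx hPy hϖ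
  set a' := algebraMap A' 𝒪' (P x) with ha'
  set b' := algebraMap A' 𝒪' (P y) with hb'
  -- `P h` is a unit of `A'`
  have hPh : IsUnit (P h) := hh.map P
  obtain ⟨u, hu⟩ := hPh.exists_left_inv  -- u * P h = 1
  -- `ϖ₀ = a * b * u`
  have hab : P x * P y = ϖ₀ * P h := by
    have := congrArg P hxy
    simpa using this
  have hϖab : ϖ₀ = P x * (P y * u) := by
    have : ϖ₀ = ϖ₀ * P h * u := by rw [mul_assoc, mul_comm (P h) u, hu, mul_one]
    rw [this, ← hab]; ring
  -- `h - P h ∈ ker P = (x - a', y - b')`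
  have hmem : h - algebraMap A' 𝒪' (P h) ∈ Ideal.span {x - a', y - b'} :=
    hker (sub_algebraMap_mem_ker P h)
  obtain ⟨lam, mu, hlm⟩ := Ideal.mem_span_pair.1 hmem
  -- the unit `1 - (b u) μ`
  set bu := algebraMap A' 𝒪' (P y * u) with hbu
  have hbu_nonunit : ¬ IsUnit (P y * u) := fun hunit =>
    hPy (isUnit_of_mul_isUnit_left hunit)
  have hbu_mem : bu ∈ IsLocalRing.maximalIdeal 𝒪' := by
    have := span_algebraMap_le_jacobson P hbu_nonunit
    rw [IsLocalRing.jacobson_eq_maximalIdeal (⊥ : Ideal 𝒪') bot_ne_top] at this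
    exact this (Ideal.subset_span rfl)
  have hunit : IsUnit (1 - bu * mu) := by
    have h1 : bu * mu ∈ IsLocalRing.maximalIdeal 𝒪' := Ideal.mul_mem_right _ _ hbu_mem
    have h2 : ¬ IsUnit (bu * mu) := (IsLocalRing.mem_maximalIdeal _).1 h1
    have := IsLocalRing.isUnit_one_sub_self_of_mem_nonunits (bu * mu) h2
    exact this
  obtain ⟨v, hv⟩ := hunit.exists_left_inv  -- v * (1 - bu * mu) = 1
  -- key identity: `a' (y - b') (1 - bu μ) = (x - a') (ϖ λ - y)`
  have hϖ' : algebraMap A' 𝒪' ϖ₀ = a' * bu := by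
    rw [ha', hbu, ← map_mul, ← hϖab]
  have hab' : a' * b' = algebraMap A' 𝒪' ϖ₀ * algebraMap A' 𝒪' (P h) := by
    rw [ha', hb', ← map_mul, hab, map_mul]
  have key : a' * (y - b') * (1 - bu * mu) = (x - a') * (algebraMap A' 𝒪' ϖ₀ * lam - y) := by
    have e : h = algebraMap A' 𝒪' (P h) + (lam * (x - a') + mu * (y - b')) := by
      rw [hlm]; ring
    linear_combination hxy - hab' + (algebraMap A' 𝒪' ϖ₀) * e + mu * (y - b') * hϖ'
  have hy : a' * (y - b') ∈ Ideal.span {x - a'} := by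
    have : a' * (y - b') = (x - a') * ((algebraMap A' 𝒪' ϖ₀ * lam - y) * v) := by
      calc a' * (y - b') = a' * (y - b') * (v * (1 - bu * mu)) := by rw [hv, mul_one]
        _ = (a' * (y - b') * (1 - bu * mu)) * v := by ring
        _ = (x - a') * ((algebraMap A' 𝒪' ϖ₀ * lam - y) * v) := by rw [key]; ring
    rw [this]
    exact Ideal.mul_mem_right _ _ (Ideal.subset_span rfl)
  intro z hz
  obtain ⟨p, q, hpq⟩ := Ideal.mem_span_pair.1 (hker hz)
  have : a' * z = (a' * p) * (x - a') + q * (a' * (y - b')) := by rw [← hpq]; ring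
  rw [this]
  exact Ideal.add_mem _ (Ideal.mul_mem_left _ _ (Ideal.subset_span rfl))
    (Ideal.mul_mem_left _ _ hy)

/-- the reverse inclusions: `x - P x ∈ ker P`. -/
theorem span_pair_le_ker (P : 𝒪' →ₐ[A'] A') (x y : 𝒪') :
    Ideal.span {x - algebraMap A' 𝒪' (P x), y - algebraMap A' 𝒪' (P y)} ≤
      RingHom.ker (P : 𝒪' →+* A') := by
  rw [Ideal.span_le]
  intro w hw
  simp only [Set.mem_insert_iff, Set.mem_singleton_iff] at hw
  rcases hw with rfl | rfl
  · exact sub_algebraMap_mem_ker P x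
  · exact sub_algebraMap_mem_ker P y

/-- **Node: `ker P = (x - a, y - b)`** (equality). -/
theorem ker_eq_span_of_node (P : 𝒪' →ₐ[A'] A') {x y : 𝒪'} {ϖ₀ : A'}
    (hgen : ∀ z : 𝒪', ∃ (c : A') (α β γ : 𝒪'),
      z = algebraMap A' 𝒪' c + α * x + β * y + γ * algebraMap A' 𝒪' ϖ₀)
    (hPx : ¬ IsUnit (P x)) (hPy : ¬ IsUnit (P y)) (hϖ : ¬ IsUnit ϖ₀) :
    RingHom.ker (P : 𝒪' →+* A') =
      Ideal.span {x - algebraMap A' 𝒪' (P x), y - algebraMap A' 𝒪' (P y)} :=
  le_antisymm (ker_le_span_of_node P hgen hPx hPy hϖ) (span_pair_le_ker P x y)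

end Fermat.Agent.A2.H129
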