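import Mathlib

/-!
# A2 / RAT, abstract part: a horizontal prime with rational residue field is a section

`R` a local ring with principal maximal ideal `(ϖ)` (a discrete valuation ring), `φ : R →+* O`,
`φ ϖ` in the Jacobson radical of `O` (`O` = local ring of the model at a closed point of the
special fibre), `P` a prime of `O` with `φ ϖ ∉ P` (a *horizontal* prime).  If the residues of `O`
modulo `P` lie in `E = Frac R = R[1/ϖ]`, then `R → O / P` is onto: `P` is the kernel of a section.
This is the hypothesis "bad horizontal primes rational" of local principality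
(`A2/H673/NodeThick.lean`) and of LOCFACT.
-/

set_option autoImplicit false

namespace Fermat.Agent.A2.H129

/-- **RAT, abstract.** -/
theorem surjective_of_rational {R O : Type*} [CommRing R] [CommRing O] (φ : R →+* O) (ϖ : R)
    (hdvr : ∀ r : R, IsUnit r ∨ ϖ ∣ r)
    (P : Ideal O) [hP : P.IsPrime] (hϖP : φ ϖ ∉ P)
    (hjac : φ ϖ ∈ Ideal.jacobson (⊥ : Ideal O))
    (hrat : ∀ b : O, ∃ (n : ℕ) (r : R), φ ϖ ^ n * b - φ r ∈ P) (b : O) :
    ∃ r : R, b - φ r ∈ P := by
  suffices h : ∀ n : ℕ, ∀ r : R, φ ϖ ^ n * b - φ r ∈ P → ∃ r' : R, b - φ r' ∈ P by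
    obtain ⟨n, r, hnr⟩ := hrat b
    exact h n r hnr
  intro n
  induction n with
  | zero =>
    intro r hr
    exact ⟨r, by simpa using hr⟩
  | succ k ih =>
    intro r hr
    rcases hdvr r with hu | ⟨r', rfl⟩
    · exfalso
      obtain ⟨u, rfl⟩ := hu
      have huu : φ (↑u : R) * φ ((u⁻¹ : Rˣ) : R) = 1 := by
        rw [← map_mul, Units.mul_inv, map_one]
      have h1 : φ ϖ * (φ ϖ ^ k * b * φ ((u⁻¹ : Rˣ) : R)) - 1 ∈ P := by
        have := P.mul_mem_right (φ ((u⁻¹ : Rˣ) : R)) hr
        have e : (φ ϖ ^ (k + 1) * b - φ (↑u : R)) * φ ((u⁻¹ : Rˣ) : R) =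
            φ ϖ * (φ ϖ ^ k * b * φ ((u⁻¹ : Rˣ) : R)) - 1 := by
          rw [pow_succ]
          linear_combination (-1 : O) * huu
        rwa [e] at this
      have hunit : IsUnit (φ ϖ * (φ ϖ ^ k * b * φ ((u⁻¹ : Rˣ) : R)) - 1) := by
        have h2 := (Ideal.mem_jacobson_bot.1 hjac) (-(φ ϖ ^ k * b * φ ((u⁻¹ : Rˣ) : R)))
        have e : φ ϖ * (φ ϖ ^ k * b * φ ((u⁻¹ : Rˣ) : R)) - 1 =
            -(φ ϖ * -(φ ϖ ^ k * b * φ ((u⁻¹ : Rˣ) : R)) + 1) := by ring
        rw [e]
        exact h2.neg
      exact hP.ne_top (Ideal.eq_top_of_isUnit_mem _ h1 hunit)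
    · apply ih r'
      have : φ ϖ * (φ ϖ ^ k * b - φ r') ∈ P := by
        have e : φ ϖ * (φ ϖ ^ k * b - φ r') = φ ϖ ^ (k + 1) * b - φ (ϖ * r') := by
          rw [map_mul, pow_succ]; ring
        rw [e]
        exact hr
      exact (hP.mem_or_mem this).resolve_left hϖP

/-- **RAT, abstract: the section.**  Under the hypotheses of `surjective_of_rational`, if `φ` is
injective modulo `P` (e.g. `R` a domain, `P ∩ R = 0`), there is a ring homomorphism
`s : O →+* R` with `s ∘ φ = id` and kernel `P`. -/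
theorem exists_section_of_rational {R O : Type*} [CommRing R] [CommRing O] (φ : R →+* O)
    (ϖ : R) (hdvr : ∀ r : R, IsUnit r ∨ ϖ ∣ r)
    (P : Ideal O) [hP : P.IsPrime] (hϖP : φ ϖ ∉ P)
    (hjac : φ ϖ ∈ Ideal.jacobson (⊥ : Ideal O))
    (hinj : ∀ r : R, φ r ∈ P → r = 0)
    (hrat : ∀ b : O, ∃ (n : ℕ) (r : R), φ ϖ ^ n * b - φ r ∈ P) :
    ∃ s : O →+* R, (∀ r, s (φ r) = r) ∧ ∀ b, s b = 0 ↔ b ∈ P := by
  classical
  have hsur := surjective_of_rational φ ϖ hdvr P hϖP hjac hrat
  choose s hs using hsur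
  have huniq : ∀ (b : O) (r : R), b - φ r ∈ P → s b = r := by
    intro b r hr
    have h := P.sub_mem hr (hs b)
    have e : b - φ r - (b - φ (s b)) = φ (s b - r) := by rw [map_sub]; ring
    rw [e] at h
    exact sub_eq_zero.1 (hinj _ h)
  refine ⟨{ toFun := s
            map_one' := huniq 1 1 (by rw [map_one, sub_self]; exact P.zero_mem)
            map_mul' := fun a b => huniq (a * b) (s a * s b) (by
              have e : a * b - φ (s a * s b) = (a - φ (s a)) * b + φ (s a) * (b - φ (s b)) := by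
                rw [map_mul]; ring
              rw [e]
              exact P.add_mem (P.mul_mem_right _ (hs a)) (P.mul_mem_left _ (hs b)))
            map_zero' := huniq 0 0 (by rw [map_zero, sub_self]; exact P.zero_mem)
            map_add' := fun a b => huniq (a + b) (s a + s b) (by
              have e : a + b - φ (s a + s b) = (a - φ (s a)) + (b - φ (s b)) := by
                rw [map_add]; ring
              rw [e]
              exact P.add_mem (hs a) (hs b)) }, ?_, ?_⟩
  · intro r
    exact huniq (φ r) r (by rw [sub_self]; exact P.zero_mem)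
  · intro b
    show s b = 0 ↔ b ∈ P
    constructor
    · intro h
      have := hs b
      rwa [h, map_zero, sub_zero] at this
    · intro h
      exact huniq b 0 (by rwa [map_zero, sub_zero])

end Fermat.Agent.A2.H129
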