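import Mathlib
import Fermat.Prelude.Def_ModularCurve_ArithmeticGalois
import Fermat.Agent.S24.FFFinite
import Fermat.Agent.Lib.FF.Principal
import Fermat.Agent.Lib.RR.Approx
import Fermat.Agent.A2.H34.Desc

/-!
# A2 / RAT, Prelude level: the zeros and poles of `f` are rational over every large level

`Q̄ = AlgebraicClosure ℚ`, `F̄ = laurentBaseChange Q̄ F₀` (e.g. `modularFunctionFieldBar N`), with a
coordinate `x` (`F̄` finite over `Q̄(x)`).  For `σ ∈ Gal(Q̄/ℚ)` let `g_σ = arithmeticGalois F₀ σ`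
(action on the coefficients).

* `arithmeticRingAut_eq_self_of_descendsTo` : a function defined over `E` is fixed by every `σ`
  fixing `E`.
* `exists_level_stable` : for `f ≠ 0` there is a finite normal `E₀/ℚ` (containing a prescribed
  finite `E₁`) over which `f` is defined and such that every `σ` fixing `E₀` fixes every zero and
  pole of `f` (as a place of `F̄`).
* `exists_const_of_stable` : if a place `v` is fixed by every `σ` fixing `E`, then every
  `g ∈ O_v` which is fixed by these `σ` (e.g. defined over `E`) has residue in `E`: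
  `g - e ∈ 𝔪_v` with `e ∈ E`.  (The place `v ∩ F_E` of `F_E` is `E`-rational.)
-/

set_option autoImplicit false
set_option linter.unusedSectionVars false
set_option linter.style.haveILetI false

noncomputable section

namespace Fermat.Agent.A2.H129

open ModularCurve AlgebraicCurve HahnSeries IntermediateField
open Fermat.Agent.S18.H602 (DescendsTo)

local notation "Q̄" => AlgebraicClosure ℚ

variable {F₀ : IntermediateField ℚ (LaurentSeries ℚ)}

/-- A function defined over `E` is fixed by every `σ` fixing `E`. -/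
theorem arithmeticRingAut_eq_self_of_descendsTo {E : IntermediateField ℚ Q̄} (σ : Q̄ ≃ₐ[ℚ] Q̄)
    (hσ : ∀ e ∈ E, σ e = e) (x : laurentBaseChange Q̄ F₀)
    (hx : DescendsTo F₀ E (x : LaurentSeries Q̄)) :
    arithmeticRingAut F₀ σ x = x := by
  obtain ⟨y, hy, hyx⟩ := hx
  apply Subtype.ext
  rw [coe_arithmeticRingAut_apply, ← hyx, coeffMap_coeffMap]
  refine coeffMap_congr (RingHom.ext fun a => ?_) y
  exact hσ a a.2

/-- `ord` and the Galois action, in the form `ord_v (σ f) = ord_{σ⁻¹ v} f`. -/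
theorem ord_arithmeticRingAut (σ : Q̄ ≃ₐ[ℚ] Q̄) (v : Place Q̄ (laurentBaseChange Q̄ F₀))
    (f : laurentBaseChange Q̄ F₀) :
    (arithmeticGalois F₀ σ • v).ord (arithmeticRingAut F₀ σ f) = v.ord f :=
  SemilinearAut.ord_smul (arithmeticGalois F₀ σ) v f

/-- two distinct places are separated by a function -/
theorem exists_mem_not_mem_of_ne {K F : Type*} [Field K] [Field F] [Algebra K F]
    (v w : Place K F) : ∃ h : F, v ≠ w → h ∈ v.toValuationSubring ∧ h ∉ w.toValuationSubring := by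
  by_cases hvw : v = w
  · exact ⟨0, fun h => absurd hvw h⟩
  · have hnle : ¬ v.toValuationSubring ≤ w.toValuationSubring := fun h =>
      hvw (Fermat.Agent.Lib.RR.place_eq_of_le h)
    rw [SetLike.not_le_iff_exists] at hnle
    obtain ⟨h, h1, h2⟩ := hnle
    exact ⟨h, fun _ => ⟨h1, h2⟩⟩

/-- if `σ` fixes `f` and a function separating `v` from `σ v`, and `v` is a zero or pole of `f`,
then `σ v = v`. -/
theorem smul_eq_self_of_fixed (σ : Q̄ ≃ₐ[ℚ] Q̄) (v : Place Q̄ (laurentBaseChange Q̄ F₀))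
    (hs : Place Q̄ (laurentBaseChange Q̄ F₀) → Place Q̄ (laurentBaseChange Q̄ F₀) →
      laurentBaseChange Q̄ F₀)
    (hhs : ∀ v w, v ≠ w → hs v w ∈ v.toValuationSubring ∧ hs v w ∉ w.toValuationSubring)
    (hσh : arithmeticRingAut F₀ σ (hs v (arithmeticGalois F₀ σ • v)) =
      hs v (arithmeticGalois F₀ σ • v)) :
    arithmeticGalois F₀ σ • v = v := by
  by_contra hne
  have hne' : v ≠ arithmeticGalois F₀ σ • v := fun h => hne h.symm
  obtain ⟨h1, h2⟩ := hhs v (arithmeticGalois F₀ σ • v) hne'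
  apply h2
  rw [Fermat.Agent.S24.FF.mem_iff_ord_nonneg]
  have := ord_arithmeticRingAut σ v (hs v (arithmeticGalois F₀ σ • v))
  rw [hσh] at this
  rw [this]
  exact Fermat.Agent.S24.FF.ord_nonneg_of_mem v h1

/-- **RAT, stabilisation.** -/
theorem exists_level_stable (x : laurentBaseChange Q̄ F₀) (hx : Transcendental Q̄ x)
    [FiniteDimensional Q̄⟮x⟯ (laurentBaseChange Q̄ F₀)]
    (f : laurentBaseChange Q̄ F₀) (E₁ : IntermediateField ℚ Q̄) [FiniteDimensional ℚ E₁] :
    ∃ E₀ : IntermediateField ℚ Q̄, FiniteDimensional ℚ E₀ ∧ Normal ℚ E₀ ∧ E₁ ≤ E₀ ∧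
      DescendsTo F₀ E₀ (f : LaurentSeries Q̄) ∧
      ∀ σ : Q̄ ≃ₐ[ℚ] Q̄, (∀ e ∈ E₀, σ e = e) →
        ∀ v : Place Q̄ (laurentBaseChange Q̄ F₀), v.ord f ≠ 0 →
          arithmeticGalois F₀ σ • v = v := by
  classical
  have hZ : {v : Place Q̄ (laurentBaseChange Q̄ F₀) | v.ord f ≠ 0}.Finite :=
    Fermat.Agent.Lib.FF.finite_setOf_ord_ne_zero' x hx f
  choose hs hhs using
    (exists_mem_not_mem_of_ne (K := Q̄) (F := laurentBaseChange Q̄ F₀))
  obtain ⟨T, hT⟩ : ∃ T : Finset (LaurentSeries Q̄),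
      (f : LaurentSeries Q̄) ∈ T ∧ (∀ y ∈ T, y ∈ laurentBaseChange Q̄ F₀) ∧
      ∀ v w : Place Q̄ (laurentBaseChange Q̄ F₀), v.ord f ≠ 0 → w.ord f ≠ 0 →
        ((hs v w : laurentBaseChange Q̄ F₀) : LaurentSeries Q̄) ∈ T := by
    refine ⟨insert (f : LaurentSeries Q̄)
      ((hZ.toFinset ×ˢ hZ.toFinset).image fun p =>
        ((hs p.1 p.2 : laurentBaseChange Q̄ F₀) : LaurentSeries Q̄)), Finset.mem_insert_self _ _,
      ?_, ?_⟩
    · intro y hy
      rcases Finset.mem_insert.1 hy with rfl | hy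
      · exact f.2
      · obtain ⟨p, -, rfl⟩ := Finset.mem_image.1 hy
        exact (hs p.1 p.2).2
    · intro v w hv hw
      refine Finset.mem_insert_of_mem (Finset.mem_image.2 ⟨(v, w), ?_, rfl⟩)
      rw [Finset.mem_product]
      exact ⟨hZ.mem_toFinset.2 hv, hZ.mem_toFinset.2 hw⟩
  obtain ⟨hfT, hTmem, hTsep⟩ := hT
  obtain ⟨E₀, hfin, hnorm, hle, hdesc⟩ :=
    Fermat.Agent.A2.H34.exists_normal_descent (F₀ := F₀) E₁ T hTmem
  refine ⟨E₀, hfin, hnorm, hle, hdesc _ hfT, ?_⟩
  intro σ hσ v hv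
  have hσf : arithmeticRingAut F₀ σ f = f :=
    arithmeticRingAut_eq_self_of_descendsTo σ hσ f (hdesc _ hfT)
  have hv' : (arithmeticGalois F₀ σ • v).ord f ≠ 0 := by
    have := ord_arithmeticRingAut σ v f
    rw [hσf] at this
    rw [this]
    exact hv
  exact smul_eq_self_of_fixed σ v hs hhs
    (arithmeticRingAut_eq_self_of_descendsTo σ hσ _ (hdesc _ (hTsep v _ hv hv')))

/-- **RAT, rational residues.** -/
theorem exists_const_of_stable (x : laurentBaseChange Q̄ F₀) (hx : Transcendental Q̄ x)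
    [FiniteDimensional Q̄⟮x⟯ (laurentBaseChange Q̄ F₀)]
    (E : IntermediateField ℚ Q̄) (v : Place Q̄ (laurentBaseChange Q̄ F₀))
    (hv : ∀ σ : Q̄ ≃ₐ[ℚ] Q̄, (∀ e ∈ E, σ e = e) → arithmeticGalois F₀ σ • v = v)
    {g : laurentBaseChange Q̄ F₀} (hg : g ∈ v.toValuationSubring)
    (hgσ : ∀ σ : Q̄ ≃ₐ[ℚ] Q̄, (∀ e ∈ E, σ e = e) → arithmeticRingAut F₀ σ g = g) :
    ∃ e : Q̄, e ∈ E ∧
      g - algebraMap Q̄ (laurentBaseChange Q̄ F₀) e ∈ v.toValuationSubring.nonunits := by
  obtain ⟨c, hc⟩ := Fermat.Agent.S24.FF.exists_const_sub_mem_nonunits v hx hg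
  refine ⟨c, ?_, hc⟩
  haveI : Algebra.IsAlgebraic ℚ Q̄ := AlgebraicClosure.isAlgebraic ℚ
  haveI : IsAlgClosure ℚ Q̄ := ⟨inferInstance, inferInstance⟩
  haveI : IsGalois ℚ Q̄ := IsAlgClosure.isGalois ℚ Q̄
  rw [← InfiniteGalois.fixedField_fixingSubgroup E, IntermediateField.mem_fixedField_iff]
  intro σ hσ
  have hσE : ∀ e ∈ E, σ e = e := fun e he => hσ ⟨e, he⟩
  by_contra hne
  -- `σ c - c` is a nonzero constant in the maximal ideal
  have h1 : arithmeticRingAut F₀ σ (g - algebraMap Q̄ (laurentBaseChange Q̄ F₀) c) =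
      g - algebraMap Q̄ (laurentBaseChange Q̄ F₀) (σ c) := by
    rw [map_sub, hgσ σ hσE, arithmeticRingAut_algebraMap]
  have h2 : g - algebraMap Q̄ (laurentBaseChange Q̄ F₀) (σ c) ∈ v.toValuationSubring.nonunits := by
    by_cases h0 : g - algebraMap Q̄ (laurentBaseChange Q̄ F₀) c = 0
    · rw [← h1, h0, map_zero]
      exact v.toValuationSubring.nonunits.zero_mem
    · have h0' : g - algebraMap Q̄ (laurentBaseChange Q̄ F₀) (σ c) ≠ 0 := by
        rw [← h1]
        exact (map_ne_zero_iff _ (arithmeticRingAut F₀ σ).injective).2 h0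
      rw [← Fermat.Agent.S24.FF.ord_pos_iff_mem_nonunits v h0']
      have := ord_arithmeticRingAut σ v (g - algebraMap Q̄ (laurentBaseChange Q̄ F₀) c)
      rw [hv σ hσE, h1] at this
      rw [this]
      exact (Fermat.Agent.S24.FF.ord_pos_iff_mem_nonunits v h0).2 hc
  have h3 : algebraMap Q̄ (laurentBaseChange Q̄ F₀) (σ c - c) ∈ v.toValuationSubring.nonunits := by
    have := v.toValuationSubring.nonunits.sub_mem hc h2
    have e : g - algebraMap Q̄ (laurentBaseChange Q̄ F₀) c -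
        (g - algebraMap Q̄ (laurentBaseChange Q̄ F₀) (σ c)) =
        algebraMap Q̄ (laurentBaseChange Q̄ F₀) (σ c - c) := by
      rw [map_sub]; ring
    rwa [e] at this
  have hne0 : σ c - c ≠ 0 := sub_ne_zero.2 hne
  rw [ValuationSubring.mem_nonunits_iff_or] at h3
  rcases h3 with h3 | h3
  · exact hne0 ((map_eq_zero_iff _ (algebraMap Q̄ (laurentBaseChange Q̄ F₀)).injective).1 h3)
  · apply h3
    rw [← map_inv₀]
    exact v.algebraMap_mem' _

/-- **RAT (Prelude level).**  For `f ≠ 0` there is a finite normal level `E₀` (containing a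
prescribed finite `E₁`) over which `f` is defined, such that over every level `E ⊇ E₀` all zeros
and poles `v` of `f` are `E`-rational: every function `g ∈ O_v` defined over `E` is congruent
modulo `𝔪_v` to a constant of `E`. -/
theorem exists_level_rational (x : laurentBaseChange Q̄ F₀) (hx : Transcendental Q̄ x)
    [FiniteDimensional Q̄⟮x⟯ (laurentBaseChange Q̄ F₀)]
    (f : laurentBaseChange Q̄ F₀) (E₁ : IntermediateField ℚ Q̄) [FiniteDimensional ℚ E₁] :
    ∃ E₀ : IntermediateField ℚ Q̄, FiniteDimensional ℚ E₀ ∧ Normal ℚ E₀ ∧ E₁ ≤ E₀ ∧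
      DescendsTo F₀ E₀ (f : LaurentSeries Q̄) ∧
      ∀ E : IntermediateField ℚ Q̄, E₀ ≤ E →
        ∀ v : Place Q̄ (laurentBaseChange Q̄ F₀), v.ord f ≠ 0 →
          ∀ g : laurentBaseChange Q̄ F₀, g ∈ v.toValuationSubring →
            DescendsTo F₀ E (g : LaurentSeries Q̄) →
            ∃ e : Q̄, e ∈ E ∧
              g - algebraMap Q̄ (laurentBaseChange Q̄ F₀) e ∈ v.toValuationSubring.nonunits := by
  obtain ⟨E₀, hfin, hnorm, hle, hdesc, hstab⟩ := exists_level_stable x hx f E₁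
  refine ⟨E₀, hfin, hnorm, hle, hdesc, ?_⟩
  intro E hE v hv g hg hgE
  refine exists_const_of_stable x hx E v (fun σ hσ => hstab σ (fun e he => hσ e (hE he)) v hv) hg
    (fun σ hσ => arithmeticRingAut_eq_self_of_descendsTo σ hσ g hgE)

end Fermat.Agent.A2.H129
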